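/-
GATE-E (S59 pre-work) / ETA sub-gate, leaf EB2 of helper2's GE9-ETA-BASE design (helper74; claims
row GE9-ETA-BASE-EB2): **the two models of `H¹(Γ₀(N), O)_𝔪` are the same.**

E6 (helper51 `FreeLevelInst`) works on `Mbase = locSub (actN O pr hpr N) 𝔪 ⊂ Hom(Γ₀(N), O)`; the ETA
machinery (`GE9/Eta/*`) works on `O ⊗[ℤ] Lam N` with the operators `(latT N l).baseChange O`.  The
comparison map is EB1's `tensHom : O ⊗[ℤ] Lam N → Hom(Γ₀(N), O)` (injective, equivariant, image the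
parabolic classes).  Since the `𝔪`-primary part of `Hom(Γ₀(N), O)` is parabolic (BND), the two
primary parts are identified.

* `exists_isLoc_preimage` : over a complete local noetherian `O`, every `s ∉ 𝔪` is surjective on the
  `𝔪`-primary part (instance-free form of `Loc.bijective_smul_locPart`);
* `exists_locEquiv` (abstract) : `h : X → Y` injective + equivariant, every primary element of `Y` in
  the range of `h` ⟹ `e : locSub actY 𝔪 ≃ₗ[O] locSub actX 𝔪` with `h (e y) = y`, equivariant;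
* `genOp_eq_cohGen`, `actLam`, `tens_actLam` : the concrete dictionary `actN ↔ latT.baseChange`;
* `exists_locEquiv_lam` : the instance for `Γ₀(N)`, with EB1 (`τ = tensHom`) as binders.

Mathlib + `GB/B8/LevelGen` + `GB/B3/{Loc, LocBridge}` + `GJ/J2/Lattice`.
-/
import Mathlib
import Fermat.Agent.GB.B8.LevelGen
import Fermat.Agent.GB.B3.Loc
import Fermat.Agent.GB.B3.LocBridge
import Fermat.Agent.GJ.J2.Lattice

set_option autoImplicit false
set_option linter.unusedSectionVars false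
set_option linter.style.haveILetI false

open scoped TensorProduct
open CongruenceSubgroup ModularCurve.Period

namespace Fermat.Agent.GE9.Eta.Base.LocBridge

open Fermat.Agent.GB.B3.RealLevel Fermat.Agent.GB.B3.Loc
open Fermat.Agent.GB.B3.LocBridge (moduleOfAct isScalarTower_moduleOfAct isLoc_iff_mem_locPart)
open Fermat.Agent.GB.B8.LevelStage Fermat.Agent.GB.B8.LevelGen Fermat.Agent.GB.B3.HeckeAct
open Fermat.Agent.S16_helper49 Fermat.Agent.GJ.J2.Lat

/-! ### the abstract comparison -/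

section Abs

variable {O : Type} [CommRing O] [IsLocalRing O] [IsNoetherianRing O]
  [IsAdicComplete (IsLocalRing.maximalIdeal O) O]
  {𝕋 : Type} [CommRing 𝕋] [Algebra O 𝕋]
  {X Y : Type} [AddCommGroup X] [Module O X] [AddCommGroup Y] [Module O Y] [Module.Finite O Y]

/-- **every `s ∉ 𝔪` is surjective on the `𝔪`-primary part** (instance-free form of
`Loc.bijective_smul_locPart`). -/
theorem exists_isLoc_preimage (actY : 𝕋 →ₐ[O] Module.End O Y) (𝔪 : Ideal 𝕋) [𝔪.IsMaximal]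
    {y : Y} (hy : IsLoc actY 𝔪 y) {s : 𝕋} (hs : s ∉ 𝔪) :
    ∃ y' : Y, IsLoc actY 𝔪 y' ∧ actY s y' = y := by
  letI := moduleOfAct actY
  haveI := isScalarTower_moduleOfAct actY
  have hy' : y ∈ locPart 𝔪 Y := (isLoc_iff_mem_locPart actY (fun _ _ => rfl) 𝔪 y).1 hy
  obtain ⟨⟨y', hy'mem⟩, hyy⟩ := (bijective_smul_locPart O (L := Y) 𝔪 hs).2 ⟨y, hy'⟩
  exact ⟨y', (isLoc_iff_mem_locPart actY (fun _ _ => rfl) 𝔪 y').2 hy'mem,
    congrArg Subtype.val hyy⟩

variable (actX : 𝕋 →ₐ[O] Module.End O X) (actY : 𝕋 →ₐ[O] Module.End O Y) (𝔪 : Ideal 𝕋)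
  [𝔪.IsMaximal] (h : X →ₗ[O] Y) (hinj : Function.Injective h)
  (hact : ∀ t x, h (actX t x) = actY t (h x))
  (hbnd : ∀ y, IsLoc actY 𝔪 y → ∃ x, h x = y)

include hact in
omit [IsLocalRing O] [IsNoetherianRing O] [IsAdicComplete (IsLocalRing.maximalIdeal O) O]
  [Module.Finite O Y] [𝔪.IsMaximal] in
/-- an equivariant map preserves primary elements. -/
theorem isLoc_map {x : X} (hx : IsLoc actX 𝔪 x) : IsLoc actY 𝔪 (h x) := by
  intro s hs
  obtain ⟨x', rfl⟩ := hx s hs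
  exact ⟨h x', (hact s x').symm⟩

include hinj hact hbnd in
/-- a primary element of `Y` is the image of a primary element of `X`. -/
theorem exists_isLoc_of_isLoc {y : Y} (hy : IsLoc actY 𝔪 y) :
    ∃ x : X, IsLoc actX 𝔪 x ∧ h x = y := by
  obtain ⟨x, hx⟩ := hbnd y hy
  refine ⟨x, fun s hs => ?_, hx⟩
  obtain ⟨y', hy', hsy⟩ := exists_isLoc_preimage actY 𝔪 hy hs
  obtain ⟨x', hx'⟩ := hbnd y' hy'
  refine ⟨x', hinj ?_⟩
  rw [hact, hx', hsy, hx]

include hinj hact hbnd in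
/-- **EB2, abstract form**: an injective equivariant `h : X → Y` whose range contains the
`𝔪`-primary part of `Y` identifies the two primary parts; the inverse `e` satisfies `h (e y) = y`
and is equivariant. -/
theorem exists_locEquiv :
    ∃ e : ↥(locSub actY 𝔪) ≃ₗ[O] ↥(locSub actX 𝔪),
      (∀ y : ↥(locSub actY 𝔪), h ((e y : ↥(locSub actX 𝔪)) : X) = (y : Y)) ∧
      (∀ (t : 𝕋) (y : ↥(locSub actY 𝔪)),
        ((e (locAct actY 𝔪 t y) : ↥(locSub actX 𝔪)) : X) = actX t ((e y : ↥(locSub actX 𝔪)) : X)) ∧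
      (∀ (t : 𝕋) (y : ↥(locSub actY 𝔪)), e (locAct actY 𝔪 t y) = locAct actX 𝔪 t (e y)) := by
  -- the restriction of `h` to the primary parts
  let g : ↥(locSub actX 𝔪) →ₗ[O] ↥(locSub actY 𝔪) :=
    (h.comp (locSub actX 𝔪).subtype).codRestrict (locSub actY 𝔪)
      (fun x => isLoc_map actX actY 𝔪 h hact x.2)
  have hg : ∀ x : ↥(locSub actX 𝔪), ((g x : ↥(locSub actY 𝔪)) : Y) = h (x : X) := fun _ => rfl
  have hgbij : Function.Bijective g := by
    constructor
    · intro x x' hxx'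
      apply Subtype.ext
      apply hinj
      rw [← hg, ← hg, hxx']
    · intro y
      obtain ⟨x, hx, hxy⟩ := exists_isLoc_of_isLoc actX actY 𝔪 h hinj hact hbnd y.2
      exact ⟨⟨x, hx⟩, Subtype.ext hxy⟩
  let e₀ : ↥(locSub actX 𝔪) ≃ₗ[O] ↥(locSub actY 𝔪) := LinearEquiv.ofBijective g hgbij
  have he₀ : ∀ y : ↥(locSub actY 𝔪), h ((e₀.symm y : ↥(locSub actX 𝔪)) : X) = (y : Y) := by
    intro y
    rw [← hg]
    exact congrArg Subtype.val (e₀.apply_symm_apply y)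
  have hval : ∀ (t : 𝕋) (y : ↥(locSub actY 𝔪)),
      ((e₀.symm (locAct actY 𝔪 t y) : ↥(locSub actX 𝔪)) : X)
        = actX t ((e₀.symm y : ↥(locSub actX 𝔪)) : X) := by
    intro t y
    apply hinj
    rw [he₀, hact, he₀]
    rfl
  exact ⟨e₀.symm, he₀, hval, fun t y => Subtype.ext (hval t y)⟩

end Abs

/-! ### the concrete dictionary at `Γ₀(N)` -/

section Gamma0

variable (O : Type) [CommRing O] (N : ℕ) [NeZero N]

/-- `genOp` (the generator of `actN`) is `cohGen`. -/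
theorem genOp_eq_cohGen (l : Nat.Primes) (φ : Additive (Gamma0 N) →+ O) :
    haveI : Fact (l : ℕ).Prime := ⟨l.2⟩
    genOp O N (l : ℕ) φ = cohGen N O l φ := by
  haveI : Fact (l : ℕ).Prime := ⟨l.2⟩
  by_cases hl : (l : ℕ) ∣ N
  · rw [genOp_of_dvd O hl, cohGen_of_dvd N O l hl]
  · rw [genOp_of_not_dvd O hl, cohGen_of_not_dvd N O l hl]

variable {σ : Type} (pr : σ → ℕ) (hpr : ∀ s, (pr s).Prime)

/-- the generator of `actN` at the symbol `s` is `cohGen` at the prime `pr s`. -/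
theorem actN_X_eq_cohGen (s : σ) (φ : Additive (Gamma0 N) →+ O) :
    actN O pr hpr N (MvPolynomial.X s) φ = cohGen N O ⟨pr s, hpr s⟩ φ := by
  rw [actN_X]
  exact genOp_eq_cohGen O N ⟨pr s, hpr s⟩ φ

/-- the lattice operator of the symbol `s` on `O ⊗[ℤ] Lam N`. -/
noncomputable def genLam (s : σ) : Module.End O (O ⊗[ℤ] Lam N) :=
  (latT N ⟨pr s, hpr s⟩).baseChange O

theorem genLam_comm (s t : σ) :
    genLam O N pr hpr s * genLam O N pr hpr t = genLam O N pr hpr t * genLam O N pr hpr s := by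
  unfold genLam
  have hc : latT N ⟨pr s, hpr s⟩ ∘ₗ latT N ⟨pr t, hpr t⟩
      = latT N ⟨pr t, hpr t⟩ ∘ₗ latT N ⟨pr s, hpr s⟩ :=
    (latT_commute N ⟨pr s, hpr s⟩ ⟨pr t, hpr t⟩).eq
  change (latT N ⟨pr s, hpr s⟩).baseChange O ∘ₗ (latT N ⟨pr t, hpr t⟩).baseChange O
    = (latT N ⟨pr t, hpr t⟩).baseChange O ∘ₗ (latT N ⟨pr s, hpr s⟩).baseChange O
  rw [← LinearMap.baseChange_comp, ← LinearMap.baseChange_comp, hc]

/-- **the action of the Hecke symbols on `O ⊗[ℤ] Lam N`**: `X s ↦ (latT N (pr s)).baseChange O`. -/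
noncomputable def actLam : MvPolynomial σ O →ₐ[O] Module.End O (O ⊗[ℤ] Lam N) :=
  polyAct (genLam O N pr hpr) (genLam_comm O N pr hpr)

theorem actLam_X (s : σ) :
    actLam O N pr hpr (MvPolynomial.X s) = (latT N ⟨pr s, hpr s⟩).baseChange O :=
  polyAct_X _ _ s

variable {O N}

/-- a map intertwining every `latT.baseChange` with `cohGen` intertwines `actLam` with `actN`. -/
theorem tens_actLam (τ : O ⊗[ℤ] Lam N →ₗ[O] (Additive (Gamma0 N) →+ O))
    (hτT : ∀ (l : Nat.Primes) (x : O ⊗[ℤ] Lam N),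
      τ ((latT N l).baseChange O x) = cohGen N O l (τ x))
    (t : MvPolynomial σ O) (x : O ⊗[ℤ] Lam N) :
    τ (actLam O N pr hpr t x) = actN O pr hpr N t (τ x) := by
  refine polyAct_intertwine (genLam O N pr hpr) (genLam_comm O N pr hpr)
    (gen O pr hpr N) (gen_comm O pr hpr N) τ (fun s y => ?_) t x
  have h1 : gen O pr hpr N s (τ y) = cohGen N O ⟨pr s, hpr s⟩ (τ y) :=
    genOp_eq_cohGen O N ⟨pr s, hpr s⟩ (τ y)
  rw [h1]
  exact hτT ⟨pr s, hpr s⟩ y

end Gamma0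

/-! ### EB2 -/

section Main

variable {O : Type} [CommRing O] [IsLocalRing O] [IsNoetherianRing O]
  [IsAdicComplete (IsLocalRing.maximalIdeal O) O]
  {N : ℕ} [NeZero N] {σ : Type} (pr : σ → ℕ) (hpr : ∀ s, (pr s).Prime)

/-- **EB2**: for a maximal ideal `𝔪` of the symbol algebra whose primary part of `Hom(Γ₀(N), O)` is
parabolic (BND), the primary parts of `Hom(Γ₀(N), O)` (action `actN`) and of `O ⊗[ℤ] Lam N` (action
`actLam`) are identified by the inverse of EB1's `τ = tensHom`: `τ (e y) = y`, equivariantly.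
EB1 enters through the binders `hτinj` (`tensHom_injective`), `hτT` (`tensHom_latT`) and `hτpar`
(`exists_tensHom_eq`). -/
theorem exists_locEquiv_lam [Module.Finite O (Additive (Gamma0 N) →+ O)]
    (𝔪 : Ideal (MvPolynomial σ O)) [𝔪.IsMaximal]
    (τ : O ⊗[ℤ] Lam N →ₗ[O] (Additive (Gamma0 N) →+ O)) (hτinj : Function.Injective τ)
    (hτT : ∀ (l : Nat.Primes) (x : O ⊗[ℤ] Lam N),
      τ ((latT N l).baseChange O x) = cohGen N O l (τ x))
    (hτpar : ∀ φ : Additive (Gamma0 N) →+ O, φ ∈ parabolicHoms O (Gamma0 N) O → ∃ x, τ x = φ)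
    (hbnd : ∀ φ : Additive (Gamma0 N) →+ O, IsLoc (actN O pr hpr N) 𝔪 φ →
      φ ∈ parabolicHoms O (Gamma0 N) O) :
    ∃ e : ↥(locSub (actN O pr hpr N) 𝔪) ≃ₗ[O] ↥(locSub (actLam O N pr hpr) 𝔪),
      (∀ y : ↥(locSub (actN O pr hpr N) 𝔪),
        τ ((e y : ↥(locSub (actLam O N pr hpr) 𝔪)) : O ⊗[ℤ] Lam N)
          = (y : Additive (Gamma0 N) →+ O)) ∧
      (∀ (t : MvPolynomial σ O) (y : ↥(locSub (actN O pr hpr N) 𝔪)),
        ((e (locAct (actN O pr hpr N) 𝔪 t y) : ↥(locSub (actLam O N pr hpr) 𝔪)) : O ⊗[ℤ] Lam N)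
          = actLam O N pr hpr t ((e y : ↥(locSub (actLam O N pr hpr) 𝔪)) : O ⊗[ℤ] Lam N)) ∧
      (∀ (t : MvPolynomial σ O) (y : ↥(locSub (actN O pr hpr N) 𝔪)),
        e (locAct (actN O pr hpr N) 𝔪 t y) = locAct (actLam O N pr hpr) 𝔪 t (e y)) :=
  exists_locEquiv (actLam O N pr hpr) (actN O pr hpr N) 𝔪 τ hτinj
    (tens_actLam pr hpr τ hτT) (fun φ hφ => hτpar φ (hbnd φ hφ))

/-- the same with the action in the form of a single symbol: `e` intertwines
`genOp`/`cohGen` at `pr s` with `(latT N (pr s)).baseChange O`. -/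
theorem locEquiv_X [Module.Finite O (Additive (Gamma0 N) →+ O)]
    (𝔪 : Ideal (MvPolynomial σ O))
    (e : ↥(locSub (actN O pr hpr N) 𝔪) ≃ₗ[O] ↥(locSub (actLam O N pr hpr) 𝔪))
    (he : ∀ (t : MvPolynomial σ O) (y : ↥(locSub (actN O pr hpr N) 𝔪)),
      ((e (locAct (actN O pr hpr N) 𝔪 t y) : ↥(locSub (actLam O N pr hpr) 𝔪)) : O ⊗[ℤ] Lam N)
        = actLam O N pr hpr t ((e y : ↥(locSub (actLam O N pr hpr) 𝔪)) : O ⊗[ℤ] Lam N))
    (s : σ) (y : ↥(locSub (actN O pr hpr N) 𝔪)) :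
    ((e (locAct (actN O pr hpr N) 𝔪 (MvPolynomial.X s) y) :
        ↥(locSub (actLam O N pr hpr) 𝔪)) : O ⊗[ℤ] Lam N)
      = (latT N ⟨pr s, hpr s⟩).baseChange O
          ((e y : ↥(locSub (actLam O N pr hpr) 𝔪)) : O ⊗[ℤ] Lam N) := by
  rw [he, actLam_X]

end Main

end Fermat.Agent.GE9.Eta.Base.LocBridge
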