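import Mathlib
import Fermat.Agent.GJ.J2.Lattice

/-!
# GE9-ETA-BASE-EB1 (S59 pre-work, helper50): `O ⊗[ℤ] Lam N ≃ Hom_par(Γ₀(N), O)`

The bridge between the two models of `H¹_par(Γ₀(N), O)` used by the engine (helper2, board 7529):
E6 works in `Additive (Gamma0 N) →+ O`, ETA on `O ⊗[ℤ] Lam N`.

* `tensHom N O : O ⊗[ℤ] Lam N →ₗ[O] (Additive (Gamma0 N) →+ O)`, `c ⊗ Φ ↦ (γ ↦ Φ γ • c)`;
* `tensHom_mem_parabolicHoms`;
* `tensHom_latT` : `tensHom ((latT N l).baseChange O x) = cohGen N O l (tensHom x)`;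
* `tensHom_injective` (any commutative ring `O`);
* `exists_tensHom_eq` : every parabolic hom into a `ℤ`-torsion-free `O` is in the image;
* `tensEquiv N O : O ⊗[ℤ] Lam N ≃ₗ[O] parabolicHoms O (Gamma0 N) O` for `O` a domain of char. 0.
-/

set_option autoImplicit false
set_option linter.unusedSectionVars false

open scoped TensorProduct MatrixGroups
open CongruenceSubgroup ModularCurve ModularCurve.Period

namespace Fermat.Agent.GE9.Eta.Base

open Fermat.Agent.GJ.J2.Lat Fermat.Agent.GJ.J2.ZStruct Fermat.Agent.S16_helper49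

variable (N : ℕ) [NeZero N] (O : Type*) [CommRing O]

/-- `Φ ↦ (γ ↦ (Φ γ : O))`, the coefficient extension `Lam N → Hom(Γ₀(N), O)`. -/
noncomputable def castLam : Lam N →ₗ[ℤ] (Additive (Gamma0 N) →+ O) :=
  AddMonoidHom.toIntLinearMap
    { toFun := fun Φ => (Int.castAddHom O).comp (Φ : Additive (Gamma0 N) →+ ℤ)
      map_zero' := by
        refine AddMonoidHom.ext fun γ => ?_
        simp
      map_add' := fun Φ Ψ => by
        refine AddMonoidHom.ext fun γ => ?_
        simp }

theorem castLam_apply (Φ : Lam N) (γ : Additive (Gamma0 N)) :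
    castLam N O Φ γ = (((Φ : Additive (Gamma0 N) →+ ℤ) γ : ℤ) : O) := rfl

theorem castLam_eq (Φ : Lam N) :
    castLam N O Φ = (Int.castAddHom O).comp (Φ : Additive (Gamma0 N) →+ ℤ) := rfl

/-- **the comparison map** `O ⊗[ℤ] Lam N → Hom(Γ₀(N), O)`, `c ⊗ Φ ↦ (γ ↦ Φ γ • c)`. -/
noncomputable def tensHom : O ⊗[ℤ] Lam N →ₗ[O] (Additive (Gamma0 N) →+ O) :=
  LinearMap.liftBaseChange O (castLam N O)

theorem tensHom_tmul (c : O) (Φ : Lam N) : tensHom N O (c ⊗ₜ Φ) = c • castLam N O Φ := by
  rw [tensHom, LinearMap.liftBaseChange_tmul]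

theorem tensHom_tmul_apply (c : O) (Φ : Lam N) (γ : Additive (Gamma0 N)) :
    tensHom N O (c ⊗ₜ Φ) γ = ((Φ : Additive (Gamma0 N) →+ ℤ) γ) • c := by
  rw [tensHom_tmul, AddMonoidHom.smul_apply, castLam_apply, zsmul_eq_mul, smul_eq_mul, mul_comm]

theorem tensHom_mem_parabolicHoms (x : O ⊗[ℤ] Lam N) :
    tensHom N O x ∈ parabolicHoms O (Gamma0 N) O := by
  induction x using TensorProduct.induction_on with
  | zero => rw [map_zero]; exact Submodule.zero_mem _
  | tmul c Φ =>
    intro γ hγ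
    rw [tensHom_tmul_apply, Φ.2 γ hγ, zero_smul]
  | add x y hx hy => rw [map_add]; exact Submodule.add_mem _ hx hy

/-- **Hecke equivariance** of the comparison map. -/
theorem tensHom_latT (l : Nat.Primes) (x : O ⊗[ℤ] Lam N) :
    tensHom N O ((latT N l).baseChange O x) = cohGen N O l (tensHom N O x) := by
  induction x using TensorProduct.induction_on with
  | zero => rw [map_zero, map_zero, map_zero]
  | tmul c Φ =>
    rw [LinearMap.baseChange_tmul, tensHom_tmul, tensHom_tmul, cohGen_smul, castLam_eq, castLam_eq,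
      coe_latT, cohGen_comp]
  | add x y hx hy => rw [map_add, map_add, map_add, hx, hy, map_add]

/-- the `ℤ`-basis of `Lam N` dual to the elements `beta N i`. -/
noncomputable def basZ : Module.Basis (I N) ℤ (Lam N) := Module.Basis.ofEquivFun (equivInt N)

theorem basZ_beta [DecidableEq (I N)] (i j : I N) :
    ((basZ N i : Lam N) : Additive (Gamma0 N) →+ ℤ) (beta N j) = if i = j then 1 else 0 := by
  have h1 : equivInt N (basZ N i) = Pi.single i 1 := by
    rw [basZ, Module.Basis.coe_ofEquivFun, LinearEquiv.apply_symm_apply]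
  have h2 := congrFun h1 j
  rw [Pi.single_apply] at h2
  rw [show ((basZ N i : Lam N) : Additive (Gamma0 N) →+ ℤ) (beta N j) = equivInt N (basZ N i) j
    from rfl, h2]
  by_cases h : i = j
  · rw [if_pos h, if_pos h.symm]
  · rw [if_neg h, if_neg (Ne.symm h)]

/-- the `O`-basis `1 ⊗ basZ i` of `O ⊗[ℤ] Lam N`. -/
noncomputable def basO : Module.Basis (I N) O (O ⊗[ℤ] Lam N) :=
  Algebra.TensorProduct.basis O (basZ N)

theorem basO_apply (i : I N) : basO N O i = (1 : O) ⊗ₜ[ℤ] basZ N i :=
  Algebra.TensorProduct.basis_apply (basZ N) i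

/-- the coordinates of `x` are the values of `tensHom x` on the `beta N j`. -/
theorem tensHom_beta (x : O ⊗[ℤ] Lam N) (j : I N) :
    tensHom N O x (beta N j) = (basO N O).repr x j := by
  classical
  conv_lhs => rw [← (basO N O).sum_repr x]
  rw [map_sum, AddMonoidHom.finsetSum_apply, Finset.sum_eq_single j]
  · rw [map_smul, AddMonoidHom.smul_apply, basO_apply, tensHom_tmul_apply, basZ_beta, if_pos rfl,
      one_smul, smul_eq_mul, mul_one]
  · intro i _ hij
    rw [map_smul, AddMonoidHom.smul_apply, basO_apply, tensHom_tmul_apply, basZ_beta, if_neg hij,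
      zero_smul, smul_zero]
  · intro hj
    exact absurd (Finset.mem_univ j) hj

/-- **the comparison map is injective** (any commutative ring of coefficients). -/
theorem tensHom_injective : Function.Injective (tensHom N O) := by
  rw [injective_iff_map_eq_zero]
  intro x hx
  apply (basO N O).repr.injective
  rw [map_zero]
  ext j
  rw [← tensHom_beta, hx, Finsupp.zero_apply, AddMonoidHom.zero_apply]

/-- **surjectivity onto the parabolic homs**, for `ℤ`-torsion-free coefficients. -/
theorem exists_tensHom_eq_of_torsionFree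
    (hA : ∀ (n : ℤ) (a : O), n ≠ 0 → n • a = 0 → a = 0)
    {φ : Additive (Gamma0 N) →+ O} (hφ : φ ∈ parabolicHoms O (Gamma0 N) O) :
    ∃ x : O ⊗[ℤ] Lam N, tensHom N O x = φ := by
  classical
  refine ⟨∑ i, φ (beta N i) ⊗ₜ[ℤ] (⟨Phi N i, Phi_isParabolicHom N i⟩ : Lam N), ?_⟩
  refine AddMonoidHom.ext fun γ => ?_
  rw [map_sum, AddMonoidHom.finsetSum_apply, expansion (parSet N) hA φ hφ γ]
  refine Finset.sum_congr rfl fun i _ => ?_
  rw [tensHom_tmul_apply]
  rfl

theorem torsionFree_of_charZero [IsDomain O] [CharZero O] (n : ℤ) (a : O) (hn : n ≠ 0)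
    (h : n • a = 0) : a = 0 := by
  rw [zsmul_eq_mul] at h
  rcases mul_eq_zero.mp h with h | h
  · exact absurd (by exact_mod_cast h) hn
  · exact h

/-- **surjectivity onto the parabolic homs** (`O` a domain of characteristic `0`). -/
theorem exists_tensHom_eq [IsDomain O] [CharZero O]
    {φ : Additive (Gamma0 N) →+ O} (hφ : φ ∈ parabolicHoms O (Gamma0 N) O) :
    ∃ x : O ⊗[ℤ] Lam N, tensHom N O x = φ :=
  exists_tensHom_eq_of_torsionFree N O (torsionFree_of_charZero O) hφ

/-- the comparison map, with values in the parabolic homs. -/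
noncomputable def tensPar : O ⊗[ℤ] Lam N →ₗ[O] parabolicHoms O (Gamma0 N) O :=
  LinearMap.codRestrict _ (tensHom N O) (tensHom_mem_parabolicHoms N O)

theorem coe_tensPar (x : O ⊗[ℤ] Lam N) :
    ((tensPar N O x : parabolicHoms O (Gamma0 N) O) : Additive (Gamma0 N) →+ O) = tensHom N O x :=
  rfl

/-- **the two models agree**: `O ⊗[ℤ] Lam N ≃ₗ[O] Hom_par(Γ₀(N), O)`. -/
noncomputable def tensEquiv [IsDomain O] [CharZero O] :
    (O ⊗[ℤ] Lam N) ≃ₗ[O] parabolicHoms O (Gamma0 N) O :=
  LinearEquiv.ofBijective (tensPar N O)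
    ⟨fun x y h => tensHom_injective N O (congrArg Subtype.val h), fun φ => by
      obtain ⟨x, hx⟩ := exists_tensHom_eq N O φ.2
      exact ⟨x, Subtype.ext hx⟩⟩

theorem coe_tensEquiv [IsDomain O] [CharZero O] (x : O ⊗[ℤ] Lam N) :
    ((tensEquiv N O x : parabolicHoms O (Gamma0 N) O) : Additive (Gamma0 N) →+ O) =
      tensHom N O x := rfl

/-- Hecke equivariance of `tensEquiv`. -/
theorem tensEquiv_latT [IsDomain O] [CharZero O] (l : Nat.Primes) (x : O ⊗[ℤ] Lam N) :
    ((tensEquiv N O ((latT N l).baseChange O x) : parabolicHoms O (Gamma0 N) O) :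
        Additive (Gamma0 N) →+ O) =
      cohGen N O l (tensEquiv N O x : parabolicHoms O (Gamma0 N) O) := by
  rw [coe_tensEquiv, coe_tensEquiv, tensHom_latT]

end Fermat.Agent.GE9.Eta.Base
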