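/-
GATE-E (S59 pre-work) / ETA sub-gate, leaf EB2 of helper2's GE9-ETA-BASE design, PLUG (helper74):
`LocBridge.exists_locEquiv_lam` with EB1 (`TensHom.lean`, helper50) plugged in — no binder left except
(BND).

* `exists_locEquiv_tens` : `O` a complete DVR-like coefficient ring (local noetherian complete domain
  of characteristic `0`), `𝔪` maximal with (BND) ⟹
  `e : locSub (actN O pr hpr N) 𝔪 ≃ₗ[O] locSub (actLam O N pr hpr) 𝔪`, `tensHom (e y) = y`,
  `e` equivariant.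
-/
import Mathlib
import Fermat.Agent.GE9.Eta.Base.LocBridge
import Fermat.Agent.GE9.Eta.Base.TensHom

set_option autoImplicit false
set_option linter.unusedSectionVars false

open scoped TensorProduct
open CongruenceSubgroup ModularCurve.Period

namespace Fermat.Agent.GE9.Eta.Base.LocBridgePlug

open Fermat.Agent.GB.B3.RealLevel
open Fermat.Agent.GB.B8.LevelStage Fermat.Agent.GB.B8.LevelGen
open Fermat.Agent.GJ.J2.Lat Fermat.Agent.GE9.Eta.Base Fermat.Agent.GE9.Eta.Base.LocBridge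

variable {O : Type} [CommRing O] [IsLocalRing O] [IsNoetherianRing O]
  [IsAdicComplete (IsLocalRing.maximalIdeal O) O] [IsDomain O] [CharZero O]
  {N : ℕ} [NeZero N] {σ : Type} (pr : σ → ℕ) (hpr : ∀ s, (pr s).Prime)

/-- **EB2, plugged**: the `𝔪`-primary parts of `Hom(Γ₀(N), O)` (symbols acting through `actN`) and
of `O ⊗[ℤ] Lam N` (symbols acting through `actLam`, i.e. `X s ↦ (latT N (pr s)).baseChange O`) are
identified by the inverse of `tensHom`. -/
theorem exists_locEquiv_tens [Module.Finite O (Additive (Gamma0 N) →+ O)]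
    (𝔪 : Ideal (MvPolynomial σ O)) [𝔪.IsMaximal]
    (hbnd : ∀ φ : Additive (Gamma0 N) →+ O, IsLoc (actN O pr hpr N) 𝔪 φ →
      φ ∈ parabolicHoms O (Gamma0 N) O) :
    ∃ e : ↥(locSub (actN O pr hpr N) 𝔪) ≃ₗ[O] ↥(locSub (actLam O N pr hpr) 𝔪),
      (∀ y : ↥(locSub (actN O pr hpr N) 𝔪),
        tensHom N O ((e y : ↥(locSub (actLam O N pr hpr) 𝔪)) : O ⊗[ℤ] Lam N)
          = (y : Additive (Gamma0 N) →+ O)) ∧
      (∀ (t : MvPolynomial σ O) (y : ↥(locSub (actN O pr hpr N) 𝔪)),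
        ((e (locAct (actN O pr hpr N) 𝔪 t y) : ↥(locSub (actLam O N pr hpr) 𝔪)) : O ⊗[ℤ] Lam N)
          = actLam O N pr hpr t ((e y : ↥(locSub (actLam O N pr hpr) 𝔪)) : O ⊗[ℤ] Lam N)) ∧
      (∀ (t : MvPolynomial σ O) (y : ↥(locSub (actN O pr hpr N) 𝔪)),
        e (locAct (actN O pr hpr N) 𝔪 t y) = locAct (actLam O N pr hpr) 𝔪 t (e y)) :=
  exists_locEquiv_lam pr hpr 𝔪 (tensHom N O) (tensHom_injective N O) (tensHom_latT N O)
    (fun _ hφ => exists_tensHom_eq N O hφ) hbnd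

end Fermat.Agent.GE9.Eta.Base.LocBridgePlug
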