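/-
GATE-E (S59 pre-work) / ETA sub-gate, leaf EB2 of helper2's GE9-ETA-BASE design, (BND) INSTANCE
(helper74): the `σ`-generic twin of helper67's `GB.B7.HBnd.hbnd_of_squarefree` (which is stated for
the symbols `prSy Sy` only) and EB2 with (BND) discharged at a SQUAREFREE level.

* `hbnd_actN_of_squarefree` : `M` squarefree, `pr s₀ ∤ M`, `X s₀ − (pr s₀ + 1) ∉ 𝔪` ⟹ every
  `𝔪`-primary `y : Γ₀(M) → O` (for `actN O pr hpr M`) is parabolic;
* `exists_locEquiv_of_squarefree` : EB2 at a squarefree level with one non-Eisenstein symbol.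
-/
import Mathlib
import Fermat.Agent.GB.B7.HBnd
import Fermat.Agent.GE9.Eta.Base.LocBridgePlug

set_option autoImplicit false
set_option linter.unusedSectionVars false
set_option linter.style.haveILetI false

open scoped TensorProduct MatrixGroups
open CongruenceSubgroup ModularCurve.Period

namespace Fermat.Agent.GE9.Eta.Base.LocBridgeBnd

open MvPolynomial
open Fermat.Agent.S16_helper49 Fermat.Agent.GM.B
open Fermat.Agent.GB.B3.RealLevel
open Fermat.Agent.GB.B8.LevelStage Fermat.Agent.GB.B8.LevelGen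
open Fermat.Agent.GJ.J2.Lat Fermat.Agent.GE9.Eta.Base Fermat.Agent.GE9.Eta.Base.LocBridge
  Fermat.Agent.GE9.Eta.Base.LocBridgePlug

section Bnd

variable {O : Type} [CommRing O] {σ : Type} (pr : σ → ℕ) (hpr : ∀ s, (pr s).Prime)

/-- **(BND) at a squarefree level, any family of symbols**: the `𝔪`-primary part of
`Hom(Γ₀(M), O)` is parabolic when some `X s₀ - (ℓ_{s₀} + 1) ∉ 𝔪` with `ℓ_{s₀} ∤ M`. -/
theorem hbnd_actN_of_squarefree (M : ℕ) (hM : Squarefree M) (𝔪 : Ideal (MvPolynomial σ O))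
    (s₀ : σ) (hs₀M : ¬ pr s₀ ∣ M)
    (hτ : (X s₀ - C (((pr s₀ + 1 : ℕ) : O)) : MvPolynomial σ O) ∉ 𝔪)
    (y : Additive (Gamma0 M) →+ O) (hy : IsLoc (actN O pr hpr M) 𝔪 y) :
    IsParabolicHom (Gamma0 M) y := by
  haveI : Fact (pr s₀).Prime := ⟨hpr s₀⟩
  obtain ⟨y', rfl⟩ := hy _ hτ
  intro γ hγ
  have h1 : actN O pr hpr M (X s₀ - C (((pr s₀ + 1 : ℕ) : O)) : MvPolynomial σ O) y'
      = cohT hs₀M O y' - (((pr s₀ + 1 : ℕ) : O)) • y' := by
    rw [map_sub, LinearMap.sub_apply, actN_X_of_not_dvd O pr hpr s₀ hs₀M y']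
    congr 1
    have h2 : (C (((pr s₀ + 1 : ℕ) : O)) : MvPolynomial σ O)
        = algebraMap O (MvPolynomial σ O) (((pr s₀ + 1 : ℕ) : O)) := rfl
    rw [h2, AlgHom.commutes, Module.algebraMap_end_apply]
  rw [h1]
  show cohT hs₀M O y' (Additive.ofMul γ) - (((pr s₀ + 1 : ℕ) : O)) • y' (Additive.ofMul γ) = 0
  rw [Fermat.Agent.GB.B7.HBnd.cohT_apply_of_parabolic hs₀M hM y' γ hγ, Nat.cast_smul_eq_nsmul,
    sub_self]

end Bnd

section Main

variable {O : Type} [CommRing O] [IsLocalRing O] [IsNoetherianRing O]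
  [IsAdicComplete (IsLocalRing.maximalIdeal O) O] [IsDomain O] [CharZero O]
  {σ : Type} (pr : σ → ℕ) (hpr : ∀ s, (pr s).Prime)

/-- **EB2 at a squarefree level**: one non-Eisenstein symbol `s₀` prime to the level discharges
(BND). -/
theorem exists_locEquiv_of_squarefree (M : ℕ) [NeZero M] (hM : Squarefree M)
    [Module.Finite O (Additive (Gamma0 M) →+ O)]
    (𝔪 : Ideal (MvPolynomial σ O)) [𝔪.IsMaximal] (s₀ : σ) (hs₀M : ¬ pr s₀ ∣ M)
    (hτ : (X s₀ - C (((pr s₀ + 1 : ℕ) : O)) : MvPolynomial σ O) ∉ 𝔪) :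
    ∃ e : ↥(locSub (actN O pr hpr M) 𝔪) ≃ₗ[O] ↥(locSub (actLam O M pr hpr) 𝔪),
      (∀ y : ↥(locSub (actN O pr hpr M) 𝔪),
        tensHom M O ((e y : ↥(locSub (actLam O M pr hpr) 𝔪)) : O ⊗[ℤ] Lam M)
          = (y : Additive (Gamma0 M) →+ O)) ∧
      (∀ (t : MvPolynomial σ O) (y : ↥(locSub (actN O pr hpr M) 𝔪)),
        ((e (locAct (actN O pr hpr M) 𝔪 t y) : ↥(locSub (actLam O M pr hpr) 𝔪)) : O ⊗[ℤ] Lam M)
          = actLam O M pr hpr t ((e y : ↥(locSub (actLam O M pr hpr) 𝔪)) : O ⊗[ℤ] Lam M)) ∧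
      (∀ (t : MvPolynomial σ O) (y : ↥(locSub (actN O pr hpr M) 𝔪)),
        e (locAct (actN O pr hpr M) 𝔪 t y) = locAct (actLam O M pr hpr) 𝔪 t (e y)) :=
  exists_locEquiv_tens pr hpr 𝔪 fun φ hφ =>
    mem_parabolicHoms_iff.2 (hbnd_actN_of_squarefree pr hpr M hM 𝔪 s₀ hs₀M hτ φ hφ)

end Main

end Fermat.Agent.GE9.Eta.Base.LocBridgeBnd
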