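/-
GATE-E / GE9-ETA-BASE (helper2), EB3: **the rank of a stage is EVEN**.

The Fricke-twisted cup form `BW N O = ⟨x, W y⟩` on `O ⊗[ℤ] Lam N` is skew-symmetric (the cup form is
skew, `W` is an isometric involution), so a Gram matrix with non-zero determinant has even size.
Together with `1 ≤ d` (freeness over the Hecke ring, E6) and `d ≤ 2` (`Mult1/MainO`) this gives the
`d = 2` needed by `Eta.Mod.eta_mod` at the base `Σ = ∅`.

* `lamB_skew`, `lamB_frP_skew` : `⟨x, W y⟩ = − ⟨y, W x⟩` on `Lam N`;
* `BW_skew` : the same on `O ⊗[ℤ] Lam N`;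
* `even_of_gram_det_ne_zero` (abstract: skew form over a domain of characteristic `≠ 2`);
* **`EtaStage.even`**, **`EtaStage.eq_two`**.
-/
import Mathlib
import Fermat.Agent.GE9.Eta.ModStage

set_option autoImplicit false
set_option linter.unusedSectionVars false

open scoped TensorProduct

namespace Fermat.Agent.GE9.Eta.Base

open Fermat.Agent.GJ.J2.Lat Fermat.Agent.GM.Asm Fermat.Agent.GE9.Fricke
  Fermat.Agent.GE9.Eta Fermat.Agent.GE9.Eta.Mod Fermat.Agent.GE9.Eta.LocTw
  Fermat.Agent.GE9.Mult1 Submodule

section Skew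

variable (N : ℕ) [NeZero N]

attribute [local instance] Fermat.Agent.GM.Asm.quotFintype Fermat.Agent.GM.Asm.quotDecEq

/-- the cup form on `Lam N` is skew. -/
theorem lamB_skew (x y : Lam N) : lamB N x y = - lamB N y x :=
  Fermat.Agent.GM.Bridge.lamForm_skew (neg_one_mem_Gamma0 N) x y

/-- **`⟨x, W y⟩ = − ⟨y, W x⟩`** on the lattice. -/
theorem lamB_frP_skew (x y : Lam N) :
    lamB N x (frP N ℤ y) = - lamB N y (frP N ℤ x) := by
  rw [lamB_skew N x (frP N ℤ y), lamB_frP_left]

variable (O : Type*) [CommRing O]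

/-- **the Fricke-twisted cup form is skew-symmetric.** -/
theorem BW_skew (x y : O ⊗[ℤ] Lam N) : BW N O x y = - BW N O y x :=
  twForm_skew (O := O) (lamB N) (frLin N) (fun u v => lamB_frP_skew N u v) x y

end Skew

section Abstract

variable {O : Type*} [CommRing O] [IsDomain O] {L : Type*} [AddCommGroup L] [Module O L]

/-- a skew form over a domain in which `2 ≠ 0`: a non-degenerate Gram matrix has even size. -/
theorem even_of_gram_det_ne_zero (h2 : (2 : O) ≠ 0) (B : L →ₗ[O] L →ₗ[O] O)
    (hskew : ∀ x y, B x y = - B y x) {d : ℕ} (b : Fin d → L)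
    (hdet : (gram B b).det ≠ 0) : Even d := by
  by_contra hodd
  rw [Nat.not_even_iff_odd] at hodd
  apply hdet
  have hT : (gram B b).transpose = - gram B b := by
    ext i j
    rw [Matrix.transpose_apply, Matrix.neg_apply, gram_apply, gram_apply]
    exact hskew _ _
  have h1 : (gram B b).det = (-1 : O) ^ d * (gram B b).det := by
    conv_lhs => rw [← Matrix.det_transpose, hT, Matrix.det_neg, Fintype.card_fin]
  rw [hodd.neg_one_pow, neg_one_mul] at h1
  have h3 : (2 : O) * (gram B b).det = 0 := by
    rw [two_mul]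
    nth_rewrite 1 [h1]
    exact neg_add_cancel _
  exact (mul_eq_zero.mp h3).resolve_left h2

end Abstract

section Stage

variable {N : ℕ} [NeZero N] {O : Type*} [CommRing O] [IsDomain O] [CharZero O]

/-- **the rank of a stage is even.** -/
theorem EtaStage.even {lam : Nat.Primes → O} {d : ℕ} (h : EtaStage N O lam d) : Even d := by
  obtain ⟨b, -, -, hdet⟩ := h
  exact even_of_gram_det_ne_zero (two_ne_zero) (BW N O) (BW_skew N O) b hdet

/-- an independent family spanning a joint eigen-sublattice with non-degenerate twisted Gram matrix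
has an even number of elements. -/
theorem even_of_gram_BW {d : ℕ} (b : Fin d → O ⊗[ℤ] Lam N)
    (hdet : (gram (BW N O) b).det ≠ 0) : Even d :=
  even_of_gram_det_ne_zero (two_ne_zero) (BW N O) (BW_skew N O) b hdet

end Stage

end Fermat.Agent.GE9.Eta.Base
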