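/-
GATE-E / GE9-ETA-BASE (helper2), EB4 + EB5 (abstract core): **the ETA fields of the base record
`BaseInput` (`GE/Engine/Base`, helper54) on ANY model `L` of the Hecke module of the minimal level,
together with the base of the module-side induction (`EtaStage M O lam 2`,
`#Ω = omegaCard M O lam`).**

Input: a `T`-module `L`, free over `T` (E6: `GE6/Stmt.minRT_of_twLevelsStmt`), an injective
`O`-linear `ι : L → O ⊗[ℤ] Lam M` onto an orthogonal direct factor for the Fricke-twisted cup form
`BW M O` (the `𝔪`-local part; `L₂` = the away part), generators `g k` of `T` acting through `ι` as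
the lattice Hecke operators `T_{pl k}` (`hact`), a FULL eigensystem `lam : Nat.Primes → O` with
`πO (g k) = lam (pl k)`, and OldQ at the base (`hold`: inside `range ι` the `g`-eigenspace is the full
eigenspace; `hin`: the full eigenspace lies in `range ι`).

Output: `B := BW ∘ (ι, ι)` is `T`-adjoint and right non-degenerate, `L[𝔭]` has an `O`-basis of
EXACTLY TWO vectors (`≥ 1`: freeness; even: `Skew`; `≤ 2`: `Mult1/MainO`), `#Ω_L = #Ω` of the
lattice model `= etaCard ^ 2`, and `EtaStage M O lam 2`.
-/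
import Mathlib
import Fermat.Agent.GE9.Eta.Base.Skew
import Fermat.Agent.GE9.Eta.OmegaLoc
import Fermat.Agent.GE9.NumCrit.ModForm.EtaDet
import Fermat.Agent.GE9.NumCrit.ModForm.EtaBase
import Fermat.Agent.GE9.NumCrit.ModForm.TorPGen

set_option autoImplicit false
set_option linter.unusedSectionVars false

open scoped TensorProduct

namespace Fermat.Agent.GE9.Eta.Base

open Fermat.Agent.GJ.J2.Lat Fermat.Agent.GM.Asm Fermat.Agent.GE9.Fricke
  Fermat.Agent.GE9.Eta Fermat.Agent.GE9.Eta.Mod Fermat.Agent.GE9.Eta.Loc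
  Fermat.Agent.GE9.Mult1 Fermat.Agent.GE9.NumCrit Fermat.Agent.GE9.NumCrit.ModForm
  Fermat.Agent.GE9 Submodule

section Form

variable {O : Type*} [CommRing O] {M : ℕ} [NeZero M]
  {T : Type*} [CommRing T] [Algebra O T]
  {L : Type*} [AddCommGroup L] [Module O L] [Module T L] [IsScalarTower O T L]
  (ι : L →ₗ[O] O ⊗[ℤ] Lam M)

/-- the pull-back of the Fricke-twisted cup form along `ι`. -/
noncomputable def pullBW : L →ₗ[O] L →ₗ[O] O := (BW M O).compl₁₂ ι ι

@[simp] theorem pullBW_apply (x y : L) : pullBW ι x y = BW M O (ι x) (ι y) := rfl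

/-- **`hadj`**: checked on algebra generators acting as lattice Hecke operators. -/
theorem pullBW_adjoint {κ : Type*} (g : κ → T) (hG : Algebra.adjoin O (Set.range g) = ⊤)
    (pl : κ → Nat.Primes)
    (hact : ∀ k x, ι (g k • x) = (latT M (pl k)).baseChange O (ι x))
    (t : T) (x y : L) : pullBW ι (t • x) y = pullBW ι x (t • y) := by
  have ht : t ∈ Algebra.adjoin O (Set.range g) := by rw [hG]; exact Algebra.mem_top
  revert x y
  induction ht using Algebra.adjoin_induction with
  | mem t ht =>
    obtain ⟨k, rfl⟩ := ht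
    intro x y
    rw [pullBW_apply, pullBW_apply, hact, hact, BW_latT]
  | algebraMap c =>
    intro x y
    rw [algebraMap_smul, algebraMap_smul, map_smul, map_smul, LinearMap.smul_apply]
  | add a b _ _ ha hb =>
    intro x y
    rw [add_smul, add_smul, map_add, map_add, LinearMap.add_apply, ha, hb]
  | mul a b _ _ ha hb =>
    intro x y
    rw [mul_smul, ha, hb, ← mul_smul, mul_comm]

end Form

section Main

variable {O : Type} [CommRing O] [IsDomain O] [CharZero O] [IsDiscreteValuationRing O]
  {M : ℕ} [NeZero M]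
  {T : Type} [CommRing T] [Algebra O T] [NoZeroSMulDivisors O T]
  {L : Type} [AddCommGroup L] [Module O L] [Module T L] [IsScalarTower O T L]

/-- **`hnd`**: `range ι` is an orthogonal direct factor of the perfect skew form `BW`. -/
theorem pullBW_nondeg (ι : L →ₗ[O] O ⊗[ℤ] Lam M) (hι : Function.Injective ι)
    (L₂ : Submodule O (O ⊗[ℤ] Lam M)) (htop : LinearMap.range ι ⊔ L₂ = ⊤)
    (horth : ∀ (x : L) (y : O ⊗[ℤ] Lam M), y ∈ L₂ → BW M O (ι x) y = 0)
    (w : L) (hw : ∀ z : L, pullBW ι z w = 0) : w = 0 := by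
  have := free_tensor_lam (O := O) M
  have := finite_tensor_lam (O := O) M
  apply hι
  rw [map_zero]
  refine hnd_of_perfect (BW M O) (perfect_BW M O) (ι w) fun y => ?_
  have hy : y ∈ LinearMap.range ι ⊔ L₂ := by rw [htop]; trivial
  obtain ⟨_, ⟨z, rfl⟩, y₂, hy₂, rfl⟩ := Submodule.mem_sup.1 hy
  rw [map_add, LinearMap.add_apply]
  have h1 : BW M O (ι z) (ι w) = 0 := hw z
  have h2 : BW M O y₂ (ι w) = 0 := by rw [BW_skew, horth w y₂ hy₂, neg_zero]
  rw [h1, h2, add_zero]

/-- **the ETA fields of the base record and the base of the module-side induction.** -/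
theorem base_fields [Module.Free T L] [Module.Finite O L] [Nontrivial L]
    (πO : T →ₐ[O] O) (hη : etaIdeal πO ≠ ⊥)
    (ι : L →ₗ[O] O ⊗[ℤ] Lam M) (hι : Function.Injective ι)
    (L₂ : Submodule O (O ⊗[ℤ] Lam M)) (htop : LinearMap.range ι ⊔ L₂ = ⊤)
    (horth : ∀ (x : L) (y : O ⊗[ℤ] Lam M), y ∈ L₂ → BW M O (ι x) y = 0)
    {κ : Type*} (g : κ → T) (hG : Algebra.adjoin O (Set.range g) = ⊤) (pl : κ → Nat.Primes)
    (hact : ∀ k x, ι (g k • x) = (latT M (pl k)).baseChange O (ι x))
    (lam : Nat.Primes → O) (hlam : ∀ k, πO (g k) = lam (pl k))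
    (hin : eigenTensorO M O lam ≤ LinearMap.range ι)
    (hold : ∀ x : L, (∀ k, (latT M (pl k)).baseChange O (ι x) = lam (pl k) • ι x) →
      ι x ∈ eigenTensorO M O lam) :
    (∀ (t : T) (x y : L), pullBW ι (t • x) y = pullBW ι x (t • y)) ∧
    (∀ w : L, (∀ z : L, pullBW ι z w = 0) → w = 0) ∧
    ∃ b : Fin 2 → L, LinearIndependent O b ∧ span O (Set.range b) = torPO πO L ∧
      Nat.card (CongMod (pullBW ι) (span O (Set.range b))) = omegaCard M O lam ∧
      Nat.card (CongMod (pullBW ι) (span O (Set.range b))) = Ind.etaCard πO ^ 2 ∧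
      EtaStage M O lam 2 := by
  have hadj := pullBW_adjoint ι g hG pl hact
  have hnd := pullBW_nondeg ι hι L₂ htop horth
  refine ⟨hadj, hnd, ?_⟩
  have hfinT : Module.Finite T L := Module.Finite.of_restrictScalars_finite O T L
  have htf : Module.IsTorsionFree O L := by
    have := torsionFree_tensor_lam (O := O) M
    exact hι.moduleIsTorsionFree ι (fun c x => map_smul ι c x)
  have hntT : Nontrivial T := Module.nontrivial T L
  obtain ⟨k, ⟨e⟩⟩ : ∃ k : ℕ, Nonempty (L ≃ₗ[T] (Fin k → T)) :=
    ⟨_, ⟨(Module.finBasis T L).equivFun⟩⟩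
  obtain ⟨b, hli, hspan, hcard⟩ := exists_fam_hB2_of_free e (pullBW ι) hadj hnd hη
  -- the image family
  have hli' : LinearIndependent O (ι ∘ b) :=
    OmegaLoc.linearIndependent_comp ι hι hli
  have hgram : gram (BW M O) (ι ∘ b) = gram (pullBW ι) b := by
    ext i j
    rfl
  have hdet : (gram (BW M O) (ι ∘ b)).det ≠ 0 := by
    rw [hgram]
    exact gram_det_ne_zero_of_eta_ne_bot (pullBW ι) hadj hnd hη b hli hspan
  have hspan' : span O (Set.range (ι ∘ b)) = eigenTensorO M O lam := by
    apply le_antisymm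
    · rw [span_le]
      rintro _ ⟨i, rfl⟩
      have hbi : b i ∈ torP πO L := by
        have : b i ∈ torPO πO L := by rw [← hspan]; exact subset_span ⟨i, rfl⟩
        exact this
      refine hold (b i) fun k => ?_
      rw [← hact, smul_eq_of_mem_torP πO hbi (g k), hlam, ← algebraMap_smul T (lam (pl k)) (b i)]
      rw [algebraMap_smul, map_smul]
    · intro y hy
      obtain ⟨x, rfl⟩ := hin hy
      have hx : x ∈ torP πO L := by
        refine mem_torP_of_adjoin_range πO g hG fun k => ?_
        apply hι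
        rw [hact, (mem_eigenTensorO.1 hy) (pl k), hlam, ← map_smul]
      have hx' : x ∈ span O (Set.range b) := by rw [hspan]; exact hx
      rw [Set.range_comp, ← Submodule.map_span]
      exact Submodule.mem_map_of_mem hx'
  -- the rank
  have hk2 : k = 2 := by
    have heven : Even k := even_of_gram_BW (ι ∘ b) hdet
    have hle : k ≤ 2 := by
      have h1 := finrank_eigenTensorO_le_two (N := M) (O := O) lam
      have h2 : Module.finrank O (span O (Set.range (ι ∘ b))) = k := by
        rw [finrank_span_eq_card hli', Fintype.card_fin]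
      rw [← hspan', h2] at h1
      exact h1
    have hpos : k ≠ 0 := by
      rintro rfl
      have : Subsingleton L := e.toEquiv.subsingleton
      exact not_subsingleton L this
    obtain ⟨m, hm⟩ := heven
    omega
  subst hk2
  refine ⟨b, hli, hspan, ?_, hcard, ⟨ι ∘ b, hli', hspan', hdet⟩⟩
  rw [← OmegaLoc.card_congMod_span (BW M O) (pullBW ι) ι L₂ htop horth (fun _ _ => rfl) b, hspan']
  rfl

end Main

end Fermat.Agent.GE9.Eta.Base
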