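/-
GATE-E / GE9-ETA-BASE (helper2), EB5-inst (Pkg-free): **`base_fields` on the module of record of
the engine at the minimal level.**

The module of record (helper12's RULING, board 7604): `L = locSub act 𝔪` (`GB/B8/LevelStage`), the
`𝔪`-primary part of `O ⊗[ℤ] Lam M` for the action `act = tensorEndAlg O (latActAlg M S)` of
`O ⊗[ℤ] heckeAlgebra M 2 S` and `𝔪 = maxθ O θ`; `T = Tloc O θ` acts through
`GE6/Inst/LocModule.locModule`.  Everything is stated for ANY model `ι : L → O ⊗[ℤ] Lam M` of the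
primary part with a compatible `Tloc O θ`-module structure (`hrange`, `hcompat`; these are the
binders of `GE6/Inst/FaithLoc.tloc_faithful`), and then specialised to `locSub` + `locModule`.

* `hecke_induction` : if every prime of the level is in `S`, the anemic Hecke algebra
  `heckeAlgebra M 2 S` is generated by the `T_ℓ` (there is no `U_q`);
* `act_selfAdj` : the whole of `O ⊗ heckeAlgebra` is self-adjoint for the Fricke-twisted form `BW`;
* `adjoin_range_gT` : `Tloc O θ` is generated over `O` by the images of the `T_ℓ`;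
* `eigen_act` : on the full eigen-sublattice `eigenTensorO M O lam` an element `b` acts by
  `πO (algebraMap b)`; `eigenTensorO_le_isLoc` : it lies in the primary part;
* **`primary_fields`** : the conclusion of `Fields.base_fields` for a model `ι`;
* **`primary_fields_locSub`** : the same for `L = locSub act 𝔪` with `locModule`.

Binders left for the caller (all Pkg-level or landed elsewhere): freeness of `L` over `Tloc`
(E6: `GE6/Stmt.minRT_of_twLevelsStmt`), `πO`, `η ≠ 0` (`GE9/Ind/EtaNe`), `hlam` (definition of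
`lam` on the good primes) and `hfull` = the output of `GE9/OldQ/Base.Consumer.exists_full_system`
(an anemic eigenvector with the eigenvalues `lam` is a full eigenvector).
-/
import Mathlib
import Fermat.Agent.GE9.Eta.Base.Fields
import Fermat.Agent.GE9.Stage.CarrierLam
import Fermat.Agent.GE6.Inst.LocModule
import Fermat.Agent.GE6.Inst.FaithLoc

set_option autoImplicit false
set_option linter.unusedSectionVars false
set_option linter.style.haveILetI false

open scoped TensorProduct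

namespace Fermat.Agent.GE9.Eta.Base.Primary

open IsLocalRing CuspForm Submodule
open Fermat.Agent.GJ.J2.Lat Fermat.Agent.GJ.J2.LatAct Fermat.Agent.GJ.Tate.Lim
  Fermat.Agent.GB.B3.Loc Fermat.Agent.GB.B3.RealLevel Fermat.Agent.GB.B4.Datum.Carrier
  Fermat.Agent.GB.B4.Datum.HeckeCarrier Fermat.Agent.GM.Asm Fermat.Agent.GE9.Fricke
  Fermat.Agent.GE9.Eta Fermat.Agent.GE9.Eta.Mod Fermat.Agent.GE9.Eta.Loc
  Fermat.Agent.GE9.Mult1 Fermat.Agent.GE9.NumCrit Fermat.Agent.GE9.NumCrit.ModForm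
  Fermat.Agent.GE9 Fermat.Agent.GE9.Eta.Base

/-! ### generators of the anemic algebra -/

section Gen

variable {M : ℕ} [NeZero M] {S : Set ℕ}

/-- **if every prime of the level is in `S`, the anemic Hecke algebra is generated by the `T_ℓ`.** -/
theorem hecke_induction (hMS : ∀ q : ℕ, q.Prime → q ∣ M → q ∈ S)
    {motive : ↥(heckeAlgebra M 2 S) → Prop}
    (hT : ∀ (ℓ : ℕ) (hℓ : ℓ.Prime) (hℓM : ¬ ℓ ∣ M) (hℓS : ℓ ∉ S),
      motive (heckeAlgebra.T hℓ hℓM hℓS))
    (hint : ∀ n : ℤ, motive (algebraMap ℤ ↥(heckeAlgebra M 2 S) n))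
    (hadd : ∀ a b, motive a → motive b → motive (a + b))
    (hmul : ∀ a b, motive a → motive b → motive (a * b))
    (t : ↥(heckeAlgebra M 2 S)) : motive t := by
  obtain ⟨t, ht⟩ := t
  refine Algebra.adjoin_induction
    (p := fun t ht => motive (⟨t, ht⟩ : ↥(heckeAlgebra M 2 S))) ?_ ?_ ?_ ?_ ht
  · rintro _ (⟨ℓ, hℓ, hℓM, hℓS, rfl⟩ | ⟨q, hqM, hq, hqS, rfl⟩)
    · exact hT ℓ hℓ hℓM hℓS
    · exact absurd (hMS q hq hqM) hqS
  · intro n
    exact hint n
  · intro a b ha hb ha' hb'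
    exact hadd _ _ ha' hb'
  · intro a b ha hb ha' hb'
    exact hmul _ _ ha' hb'

end Gen

/-! ### the action of `O ⊗ heckeAlgebra` on `O ⊗ Lam M` -/

section Act

variable (O : Type) [CommRing O] (M : ℕ) [NeZero M] (S : Set ℕ)

/-- the generator `1 ⊗ T_ℓ` acts as the lattice Hecke operator. -/
theorem act_T {ℓ : ℕ} (hℓ : ℓ.Prime) (hℓM : ¬ ℓ ∣ M) (hℓS : ℓ ∉ S) (x : O ⊗[ℤ] Lam M) :
    tensorEndAlg O (latActAlg M S) ((1 : O) ⊗ₜ[ℤ] heckeAlgebra.T hℓ hℓM hℓS) x
      = (latT M (⟨ℓ, hℓ⟩ : Nat.Primes)).baseChange O x := by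
  rw [tensorEndAlg_tmul, one_smul]
  show (latAct M S (heckeAlgebra.T hℓ hℓM hℓS)).baseChange O x = _
  rw [latAct_T]

/-- a pure tensor. -/
theorem act_tmul (c : O) (t : ↥(heckeAlgebra M 2 S)) (x : O ⊗[ℤ] Lam M) :
    tensorEndAlg O (latActAlg M S) (c ⊗ₜ[ℤ] t) x = c • (latAct M S t).baseChange O x := by
  rw [tensorEndAlg_tmul, LinearMap.smul_apply]
  rfl

/-- **the whole of `O ⊗ heckeAlgebra M 2 S` is self-adjoint for the Fricke-twisted cup form.** -/
theorem act_selfAdj (b : O ⊗[ℤ] ↥(heckeAlgebra M 2 S)) (x y : O ⊗[ℤ] Lam M) :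
    BW M O (tensorEndAlg O (latActAlg M S) b x) y
      = BW M O x (tensorEndAlg O (latActAlg M S) b y) := by
  induction b using TensorProduct.induction_on with
  | zero =>
    rw [map_zero, LinearMap.zero_apply, LinearMap.zero_apply, map_zero, map_zero,
      LinearMap.zero_apply]
  | tmul c t =>
    rw [act_tmul, act_tmul, map_smul, map_smul, LinearMap.smul_apply,
      Fermat.Agent.GE9.Stage.CarrierLam.selfAdj_of_mem_latAlg M O _ (latAct_mem_latAlg M S t)]
  | add a b ha hb =>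
    rw [map_add, LinearMap.add_apply, LinearMap.add_apply, map_add, map_add, LinearMap.add_apply,
      ha, hb]

end Act

/-! ### the localised algebra and the eigen-sublattice -/

section Main

variable {O : Type} [CommRing O] [IsDomain O] [CharZero O] [IsDiscreteValuationRing O]
  [IsAdicComplete (maximalIdeal O) O]
  {M : ℕ} [NeZero M] {S : Set ℕ}
  (θ : ↥(heckeAlgebra M 2 S) →+* ResidueField O)

/-- the generators of `Tloc O θ`: the images of the `T_ℓ`, `ℓ ∤ M`, `ℓ ∉ S`. -/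
noncomputable def gT (k : {ℓ : Nat.Primes // ¬ (ℓ : ℕ) ∣ M ∧ (ℓ : ℕ) ∉ S}) : Tloc O θ :=
  piT O θ (heckeAlgebra.T k.1.2 k.2.1 k.2.2)

theorem gT_eq (k : {ℓ : Nat.Primes // ¬ (ℓ : ℕ) ∣ M ∧ (ℓ : ℕ) ∉ S}) :
    gT θ k = algebraMap (O ⊗[ℤ] ↥(heckeAlgebra M 2 S)) (Tloc O θ)
      ((1 : O) ⊗ₜ[ℤ] heckeAlgebra.T k.1.2 k.2.1 k.2.2) := rfl

/-- **`Tloc O θ` is generated over `O` by the images of the `T_ℓ`.** -/
theorem adjoin_range_gT (hMS : ∀ q : ℕ, q.Prime → q ∣ M → q ∈ S) :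
    Algebra.adjoin O (Set.range (gT θ)) = ⊤ := by
  rw [eq_top_iff, ← adjoin_range_piT O θ]
  refine Algebra.adjoin_le ?_
  rintro _ ⟨t, rfl⟩
  refine hecke_induction hMS
    (motive := fun t => piT O θ t ∈ Algebra.adjoin O (Set.range (gT θ))) ?_ ?_ ?_ ?_ t
  · intro ℓ hℓ hℓM hℓS
    exact Algebra.subset_adjoin ⟨⟨⟨ℓ, hℓ⟩, hℓM, hℓS⟩, rfl⟩
  · intro n
    rw [eq_intCast, map_intCast]
    exact intCast_mem _ n
  · intro a b ha hb
    rw [map_add]
    exact Subalgebra.add_mem _ ha hb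
  · intro a b ha hb
    rw [map_mul]
    exact Subalgebra.mul_mem _ ha hb

variable (πO : Tloc O θ →ₐ[O] O) (lam : Nat.Primes → O)

/-- on the full eigen-sublattice an element of the anemic algebra acts through the point `πO`. -/
theorem eigen_latAct (hMS : ∀ q : ℕ, q.Prime → q ∣ M → q ∈ S)
    (hlam : ∀ (ℓ : ℕ) (hℓ : ℓ.Prime) (hℓM : ¬ ℓ ∣ M) (hℓS : ℓ ∉ S),
      πO (piT O θ (heckeAlgebra.T hℓ hℓM hℓS)) = lam ⟨ℓ, hℓ⟩)
    {x : O ⊗[ℤ] Lam M} (hx : x ∈ eigenTensorO M O lam) (t : ↥(heckeAlgebra M 2 S)) :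
    (latAct M S t).baseChange O x = πO (piT O θ t) • x := by
  refine hecke_induction hMS
    (motive := fun t => (latAct M S t).baseChange O x = πO (piT O θ t) • x) ?_ ?_ ?_ ?_ t
  · intro ℓ hℓ hℓM hℓS
    rw [latAct_T, hlam, mem_eigenTensorO.1 hx]
  · intro n
    have h1 : latAct M S (algebraMap ℤ ↥(heckeAlgebra M 2 S) n)
        = algebraMap ℤ (Module.End ℤ (Lam M)) n := (latActAlg M S).commutes n
    have h2 : πO (piT O θ (algebraMap ℤ ↥(heckeAlgebra M 2 S) n)) = (n : O) := by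
      rw [eq_intCast, map_intCast, map_intCast]
    rw [h1, h2, Fermat.Agent.GE9.Stage.CarrierLam.baseChange_algebraMap_int]
  · intro a b ha hb
    rw [map_add, LinearMap.baseChange_add, LinearMap.add_apply, ha, hb, map_add, map_add, add_smul]
  · intro a b ha hb
    rw [map_mul, Module.End.mul_eq_comp, LinearMap.baseChange_comp, LinearMap.comp_apply, hb,
      map_smul, ha, smul_smul, map_mul, map_mul, mul_comm]

/-- on the full eigen-sublattice `b : O ⊗ heckeAlgebra` acts by the scalar `πO (algebraMap b)`. -/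
theorem eigen_act (hMS : ∀ q : ℕ, q.Prime → q ∣ M → q ∈ S)
    (hlam : ∀ (ℓ : ℕ) (hℓ : ℓ.Prime) (hℓM : ¬ ℓ ∣ M) (hℓS : ℓ ∉ S),
      πO (piT O θ (heckeAlgebra.T hℓ hℓM hℓS)) = lam ⟨ℓ, hℓ⟩)
    {x : O ⊗[ℤ] Lam M} (hx : x ∈ eigenTensorO M O lam) (b : O ⊗[ℤ] ↥(heckeAlgebra M 2 S)) :
    tensorEndAlg O (latActAlg M S) b x
      = πO (algebraMap (O ⊗[ℤ] ↥(heckeAlgebra M 2 S)) (Tloc O θ) b) • x := by
  induction b using TensorProduct.induction_on with
  | zero => rw [map_zero, LinearMap.zero_apply, map_zero, map_zero, zero_smul]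
  | tmul c t =>
    rw [act_tmul, eigen_latAct θ πO lam hMS hlam hx, algebraMap_tmul, map_smul, smul_eq_mul,
      mul_smul]
  | add a b ha hb =>
    rw [map_add, LinearMap.add_apply, ha, hb, map_add, map_add, add_smul]

/-- **the full eigen-sublattice of the point lies in the `maxθ`-primary part.** -/
theorem eigenTensorO_le_isLoc (hMS : ∀ q : ℕ, q.Prime → q ∣ M → q ∈ S)
    (hlam : ∀ (ℓ : ℕ) (hℓ : ℓ.Prime) (hℓM : ¬ ℓ ∣ M) (hℓS : ℓ ∉ S),
      πO (piT O θ (heckeAlgebra.T hℓ hℓM hℓS)) = lam ⟨ℓ, hℓ⟩)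
    {x : O ⊗[ℤ] Lam M} (hx : x ∈ eigenTensorO M O lam) :
    IsLoc (tensorEndAlg O (latActAlg M S)) (maxθ O θ) x := by
  intro s hs
  have hu : IsUnit (πO (algebraMap (O ⊗[ℤ] ↥(heckeAlgebra M 2 S)) (Tloc O θ) s)) :=
    (IsLocalization.map_units (Tloc O θ) (⟨s, hs⟩ : (maxθ O θ).primeCompl)).map πO
  obtain ⟨u, hu⟩ := hu
  refine ⟨((u⁻¹ : Oˣ) : O) • x, ?_⟩
  rw [map_smul, eigen_act θ πO lam hMS hlam hx, ← hu, smul_smul, Units.inv_mul, one_smul]

/-- **the ETA fields of the base record on a model of the `maxθ`-primary part of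
`O ⊗[ℤ] Lam M`**, with the base of the module-side induction. -/
theorem primary_fields (hMS : ∀ q : ℕ, q.Prime → q ∣ M → q ∈ S)
    {L : Type} [AddCommGroup L] [Module O L] [Module (Tloc O θ) L]
    [IsScalarTower O (Tloc O θ) L] [NoZeroSMulDivisors O (Tloc O θ)]
    [Module.Free (Tloc O θ) L] [Module.Finite O L] [Nontrivial L]
    (ι : L →ₗ[O] O ⊗[ℤ] Lam M) (hι : Function.Injective ι)
    (hrange : ∀ x : O ⊗[ℤ] Lam M, IsLoc (tensorEndAlg O (latActAlg M S)) (maxθ O θ) x →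
      ∃ y, ι y = x)
    (hmem : ∀ y : L, IsLoc (tensorEndAlg O (latActAlg M S)) (maxθ O θ) (ι y))
    (hcompat : ∀ (b : O ⊗[ℤ] ↥(heckeAlgebra M 2 S)) (y : L),
      ι (algebraMap (O ⊗[ℤ] ↥(heckeAlgebra M 2 S)) (Tloc O θ) b • y)
        = tensorEndAlg O (latActAlg M S) b (ι y))
    (hη : etaIdeal πO ≠ ⊥)
    (hlam : ∀ (ℓ : ℕ) (hℓ : ℓ.Prime) (hℓM : ¬ ℓ ∣ M) (hℓS : ℓ ∉ S),
      πO (piT O θ (heckeAlgebra.T hℓ hℓM hℓS)) = lam ⟨ℓ, hℓ⟩)
    (hfull : ∀ x : O ⊗[ℤ] Lam M,
      (∀ l : Nat.Primes, ¬ (l : ℕ) ∣ M → (l : ℕ) ∉ S → (latT M l).baseChange O x = lam l • x) →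
        ∀ l : Nat.Primes, (latT M l).baseChange O x = lam l • x) :
    (∀ (t : Tloc O θ) (x y : L), pullBW ι (t • x) y = pullBW ι x (t • y)) ∧
    (∀ w : L, (∀ z : L, pullBW ι z w = 0) → w = 0) ∧
    ∃ b : Fin 2 → L, LinearIndependent O b ∧ span O (Set.range b) = torPO πO L ∧
      Nat.card (CongMod (pullBW ι) (span O (Set.range b))) = omegaCard M O lam ∧
      Nat.card (CongMod (pullBW ι) (span O (Set.range b))) = Ind.etaCard πO ^ 2 ∧
      EtaStage M O lam 2 := by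
  letI := Fermat.Agent.GB.B3.LocBridge.moduleOfAct (tensorEndAlg O (latActAlg M S))
  haveI := Fermat.Agent.GB.B3.LocBridge.isScalarTower_moduleOfAct (tensorEndAlg O (latActAlg M S))
  have hfin := finite_tensor_lam (O := O) M
  have hloc : ∀ x : O ⊗[ℤ] Lam M,
      IsLoc (tensorEndAlg O (latActAlg M S)) (maxθ O θ) x ↔ x ∈ locPart (maxθ O θ) (O ⊗[ℤ] Lam M) :=
    fun x => Fermat.Agent.GB.B3.LocBridge.isLoc_iff_mem_locPart _ (fun _ _ => rfl) (maxθ O θ) x
  have hsa : ∀ (a : O ⊗[ℤ] ↥(heckeAlgebra M 2 S)) (x y : O ⊗[ℤ] Lam M),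
      BW M O (a • x) y = BW M O x (a • y) := fun a x y => act_selfAdj O M S a x y
  refine base_fields πO hη ι hι ((awayPart (maxθ O θ) (O ⊗[ℤ] Lam M)).restrictScalars O) ?_ ?_
    (gT θ) (adjoin_range_gT θ hMS) (fun k => k.1) ?_ lam ?_ ?_ ?_
  · -- `htop`
    rw [eq_top_iff]
    intro x _
    have hcompl := isCompl_locPart_awayPart O (L := O ⊗[ℤ] Lam M) (maxθ O θ)
    have hx : x ∈ locPart (maxθ O θ) (O ⊗[ℤ] Lam M) ⊔ awayPart (maxθ O θ) (O ⊗[ℤ] Lam M) := by
      rw [hcompl.sup_eq_top]; trivial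
    obtain ⟨x₁, hx₁, x₂, hx₂, rfl⟩ := Submodule.mem_sup.1 hx
    obtain ⟨y, rfl⟩ := hrange x₁ ((hloc x₁).2 hx₁)
    exact Submodule.add_mem _ (Submodule.mem_sup_left ⟨y, rfl⟩) (Submodule.mem_sup_right hx₂)
  · -- `horth`
    intro x y hy
    exact (apply_eq_zero_of_mem_locPart_of_mem_awayPart (maxθ O θ) (BW M O) hsa
      ((hloc _).1 (hmem x)) hy).1
  · -- `hact`
    intro k x
    rw [gT_eq, hcompat, act_T]
    rfl
  · -- `hlam`
    intro k
    exact hlam k.1.1 k.1.2 k.2.1 k.2.2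
  · -- `hin`
    intro x hx
    obtain ⟨y, rfl⟩ := hrange x (eigenTensorO_le_isLoc θ πO lam hMS hlam hx)
    exact ⟨y, rfl⟩
  · -- `hold`
    intro x hx
    rw [mem_eigenTensorO]
    exact hfull (ι x) fun l hlM hlS => hx ⟨l, hlM, hlS⟩

end Main

/-! ### the module of record: `locSub` with `locModule` -/

section LocSub

open Fermat.Agent.GB.B8.LevelStage Fermat.Agent.GE6.Inst.LocModule

variable {O : Type} [CommRing O] [IsDomain O] [CharZero O] [IsDiscreteValuationRing O]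
  [IsAdicComplete (maximalIdeal O) O]
  {M : ℕ} [NeZero M] {S : Set ℕ}
  (θ : ↥(heckeAlgebra M 2 S) →+* ResidueField O)
  [Module.Finite O (O ⊗[ℤ] Lam M)]

/-- **the ETA fields of the base record on the module of record**
`L = locSub (tensorEndAlg O (latActAlg M S)) (maxθ O θ)` with the `Tloc O θ`-module structure
`LocModule.locModule` and the pairing `pullBW (locSub …).subtype` (the restriction of the
Fricke-twisted cup form). -/
theorem primary_fields_locSub (hMS : ∀ q : ℕ, q.Prime → q ∣ M → q ∈ S)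
    [NoZeroSMulDivisors O (Tloc O θ)]
    (hfree : letI := locModule (tensorEndAlg O (latActAlg M S)) (maxθ O θ) (Tloc O θ)
      Module.Free (Tloc O θ) ↥(locSub (tensorEndAlg O (latActAlg M S)) (maxθ O θ)))
    (hnt : Nontrivial ↥(locSub (tensorEndAlg O (latActAlg M S)) (maxθ O θ)))
    (πO : Tloc O θ →ₐ[O] O) (hη : etaIdeal πO ≠ ⊥) (lam : Nat.Primes → O)
    (hlam : ∀ (ℓ : ℕ) (hℓ : ℓ.Prime) (hℓM : ¬ ℓ ∣ M) (hℓS : ℓ ∉ S),
      πO (piT O θ (heckeAlgebra.T hℓ hℓM hℓS)) = lam ⟨ℓ, hℓ⟩)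
    (hfull : ∀ x : O ⊗[ℤ] Lam M,
      (∀ l : Nat.Primes, ¬ (l : ℕ) ∣ M → (l : ℕ) ∉ S → (latT M l).baseChange O x = lam l • x) →
        ∀ l : Nat.Primes, (latT M l).baseChange O x = lam l • x) :
    letI := locModule (tensorEndAlg O (latActAlg M S)) (maxθ O θ) (Tloc O θ)
    haveI := isScalarTower_locModule (tensorEndAlg O (latActAlg M S)) (maxθ O θ) (Tloc O θ)
    (∀ (t : Tloc O θ) (x y : ↥(locSub (tensorEndAlg O (latActAlg M S)) (maxθ O θ))),
      pullBW (locSub (tensorEndAlg O (latActAlg M S)) (maxθ O θ)).subtype (t • x) y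
        = pullBW (locSub (tensorEndAlg O (latActAlg M S)) (maxθ O θ)).subtype x (t • y)) ∧
    (∀ w : ↥(locSub (tensorEndAlg O (latActAlg M S)) (maxθ O θ)),
      (∀ z, pullBW (locSub (tensorEndAlg O (latActAlg M S)) (maxθ O θ)).subtype z w = 0) →
        w = 0) ∧
    ∃ b : Fin 2 → ↥(locSub (tensorEndAlg O (latActAlg M S)) (maxθ O θ)),
      LinearIndependent O b ∧
      span O (Set.range b)
        = torPO πO ↥(locSub (tensorEndAlg O (latActAlg M S)) (maxθ O θ)) ∧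
      Nat.card (CongMod (pullBW (locSub (tensorEndAlg O (latActAlg M S)) (maxθ O θ)).subtype)
        (span O (Set.range b))) = omegaCard M O lam ∧
      Nat.card (CongMod (pullBW (locSub (tensorEndAlg O (latActAlg M S)) (maxθ O θ)).subtype)
        (span O (Set.range b))) = Ind.etaCard πO ^ 2 ∧
      EtaStage M O lam 2 := by
  letI := locModule (tensorEndAlg O (latActAlg M S)) (maxθ O θ) (Tloc O θ)
  haveI := isScalarTower_locModule (tensorEndAlg O (latActAlg M S)) (maxθ O θ) (Tloc O θ)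
  haveI : Module.Free (Tloc O θ) ↥(locSub (tensorEndAlg O (latActAlg M S)) (maxθ O θ)) := hfree
  haveI : Module.Finite O ↥(locSub (tensorEndAlg O (latActAlg M S)) (maxθ O θ)) :=
    (Stage.base (tensorEndAlg O (latActAlg M S)) (maxθ O θ)).finite
  exact primary_fields θ πO lam hMS
    (locSub (tensorEndAlg O (latActAlg M S)) (maxθ O θ)).subtype Subtype.val_injective
    (fun x hx => ⟨⟨x, hx⟩, rfl⟩) (fun y => y.2)
    (fun b y => coe_algebraMap_smul (tensorEndAlg O (latActAlg M S)) (maxθ O θ) (Tloc O θ) b y)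
    hη hlam hfull

end LocSub

end Fermat.Agent.GE9.Eta.Base.Primary
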