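/-
GATE-E / GE9-ETA-BASE (helper2), EB4-abs: **`Fields.base_fields` with an ABSTRACT ambient module.**

`Fields.base_fields` is hard-wired to the ambient `X = O ⊗[ℤ] Lam M` with its PERFECT Fricke-twisted
cup form.  For the `p`-new base of the raise-`p` branch (RISK-4: `X = KNew ⊆ O ⊗ Lam (N p)`,
`BX = BW` restricted, which is non-degenerate but NOT perfect) the same argument is needed with

* an abstract torsion-free ambient `X` with a SKEW (`hskew`) and NON-DEGENERATE (`hndX`) form `BX`,
* commuting operators `op k : End_O X`, self-adjoint for `BX` (`hsa`),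
* an "eigen-submodule" `P ≤ X` of rank `≤ 2` (`hP2`) on which `op k` acts by `lamk k` (`hPe`).

Input as in `base_fields`: a `T`-module `L`, free over `T`, an injective `ι : L → X` onto an
orthogonal direct factor (`L₂`, `htop`, `horth`), generators `g k` of `T` acting through `ι` as
`op k` (`hact`), the point `πO` with `πO (g k) = lamk k`, `hin : P ≤ range ι`, and `hold` (a
`g`-eigenvector of `L` lies in `P`).

Output: `BX ∘ (ι, ι)` is `T`-adjoint and right non-degenerate, `L[𝔭]` has an `O`-basis of EXACTLY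
TWO vectors, `#Ω_L = #CongMod BX P = etaCard ^ 2`, and `ι ∘ b` is an `O`-basis of `P` with
non-degenerate Gram matrix.
-/
import Mathlib
import Fermat.Agent.GE9.Eta.Base.Skew
import Fermat.Agent.GE9.Eta.OmegaLoc
import Fermat.Agent.GE9.NumCrit.ModForm.EtaDet
import Fermat.Agent.GE9.NumCrit.ModForm.EtaBase
import Fermat.Agent.GE9.NumCrit.ModForm.TorPGen

set_option autoImplicit false
set_option linter.unusedSectionVars false

namespace Fermat.Agent.GE9.Eta.Base.FieldsAbs

open Fermat.Agent.GE9.Eta Fermat.Agent.GE9.NumCrit Fermat.Agent.GE9.NumCrit.ModForm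
  Fermat.Agent.GE9 Fermat.Agent.GE9.Eta.Base Submodule

section Form

variable {O : Type*} [CommRing O] {X : Type*} [AddCommGroup X] [Module O X]
  (BX : X →ₗ[O] X →ₗ[O] O)
  {T : Type*} [CommRing T] [Algebra O T]
  {L : Type*} [AddCommGroup L] [Module O L] [Module T L] [IsScalarTower O T L]
  (ι : L →ₗ[O] X)

/-- the pull-back of the ambient form along `ι`. -/
noncomputable def pullX : L →ₗ[O] L →ₗ[O] O := BX.compl₁₂ ι ι

@[simp] theorem pullX_apply (x y : L) : pullX BX ι x y = BX (ι x) (ι y) := rfl

/-- **`hadj`**: checked on algebra generators acting as self-adjoint operators. -/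
theorem pullX_adjoint {κ : Type*} (g : κ → T) (hG : Algebra.adjoin O (Set.range g) = ⊤)
    (op : κ → Module.End O X) (hsa : ∀ k x y, BX (op k x) y = BX x (op k y))
    (hact : ∀ k x, ι (g k • x) = op k (ι x))
    (t : T) (x y : L) : pullX BX ι (t • x) y = pullX BX ι x (t • y) := by
  have ht : t ∈ Algebra.adjoin O (Set.range g) := by rw [hG]; exact Algebra.mem_top
  revert x y
  induction ht using Algebra.adjoin_induction with
  | mem t ht =>
    obtain ⟨k, rfl⟩ := ht
    intro x y
    rw [pullX_apply, pullX_apply, hact, hact, hsa]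
  | algebraMap c =>
    intro x y
    rw [algebraMap_smul, algebraMap_smul, map_smul, map_smul, LinearMap.smul_apply]
  | add a b _ _ ha hb =>
    intro x y
    rw [add_smul, add_smul, map_add, map_add, LinearMap.add_apply, ha, hb]
  | mul a b _ _ ha hb =>
    intro x y
    rw [mul_smul, ha, hb, ← mul_smul, mul_comm]

/-- **`hnd`**: `range ι` is an orthogonal direct factor of the non-degenerate skew form `BX`. -/
theorem pullX_nondeg (hskew : ∀ x y, BX x y = - BX y x)
    (hndX : ∀ w : X, (∀ z : X, BX z w = 0) → w = 0) (hι : Function.Injective ι)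
    (L₂ : Submodule O X) (htop : LinearMap.range ι ⊔ L₂ = ⊤)
    (horth : ∀ (x : L) (y : X), y ∈ L₂ → BX (ι x) y = 0)
    (w : L) (hw : ∀ z : L, pullX BX ι z w = 0) : w = 0 := by
  apply hι
  rw [map_zero]
  refine hndX (ι w) fun y => ?_
  have hy : y ∈ LinearMap.range ι ⊔ L₂ := by rw [htop]; trivial
  obtain ⟨_, ⟨z, rfl⟩, y₂, hy₂, rfl⟩ := Submodule.mem_sup.1 hy
  rw [map_add, LinearMap.add_apply]
  have h1 : BX (ι z) (ι w) = 0 := hw z
  have h2 : BX y₂ (ι w) = 0 := by rw [hskew, horth w y₂ hy₂, neg_zero]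
  rw [h1, h2, add_zero]

end Form

section Main

variable {O : Type} [CommRing O] [IsDomain O] [CharZero O] [IsDiscreteValuationRing O]
  {X : Type} [AddCommGroup X] [Module O X] [Module.IsTorsionFree O X]
  (BX : X →ₗ[O] X →ₗ[O] O)
  {T : Type} [CommRing T] [Algebra O T] [NoZeroSMulDivisors O T]
  {L : Type} [AddCommGroup L] [Module O L] [Module T L] [IsScalarTower O T L]

/-- **the ETA fields of a base record, abstract ambient module.** -/
theorem base_fields_abs [Module.Free T L] [Module.Finite O L] [Nontrivial L]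
    (hskew : ∀ x y, BX x y = - BX y x)
    (hndX : ∀ w : X, (∀ z : X, BX z w = 0) → w = 0)
    (πO : T →ₐ[O] O) (hη : etaIdeal πO ≠ ⊥)
    (ι : L →ₗ[O] X) (hι : Function.Injective ι)
    (L₂ : Submodule O X) (htop : LinearMap.range ι ⊔ L₂ = ⊤)
    (horth : ∀ (x : L) (y : X), y ∈ L₂ → BX (ι x) y = 0)
    {κ : Type*} (g : κ → T) (hG : Algebra.adjoin O (Set.range g) = ⊤)
    (op : κ → Module.End O X) (hsa : ∀ k x y, BX (op k x) y = BX x (op k y))
    (hact : ∀ k x, ι (g k • x) = op k (ι x))
    (lamk : κ → O) (hlam : ∀ k, πO (g k) = lamk k)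
    (P : Submodule O X) (hP2 : Module.finrank O P ≤ 2)
    (hPe : ∀ y ∈ P, ∀ k, op k y = lamk k • y)
    (hin : P ≤ LinearMap.range ι)
    (hold : ∀ x : L, (∀ k, op k (ι x) = lamk k • ι x) → ι x ∈ P) :
    (∀ (t : T) (x y : L), pullX BX ι (t • x) y = pullX BX ι x (t • y)) ∧
    (∀ w : L, (∀ z : L, pullX BX ι z w = 0) → w = 0) ∧
    ∃ b : Fin 2 → L, LinearIndependent O b ∧ span O (Set.range b) = torPO πO L ∧
      Nat.card (CongMod (pullX BX ι) (span O (Set.range b))) = Nat.card (CongMod BX P) ∧
      Nat.card (CongMod (pullX BX ι) (span O (Set.range b))) = Ind.etaCard πO ^ 2 ∧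
      LinearIndependent O (ι ∘ b) ∧ span O (Set.range (ι ∘ b)) = P ∧
      (gram BX (ι ∘ b)).det ≠ 0 := by
  have hadj := pullX_adjoint BX ι g hG op hsa hact
  have hnd := pullX_nondeg BX ι hskew hndX hι L₂ htop horth
  refine ⟨hadj, hnd, ?_⟩
  have hfinT : Module.Finite T L := Module.Finite.of_restrictScalars_finite O T L
  have htf : Module.IsTorsionFree O L :=
    hι.moduleIsTorsionFree ι (fun c x => map_smul ι c x)
  have hntT : Nontrivial T := Module.nontrivial T L
  obtain ⟨k, ⟨e⟩⟩ : ∃ k : ℕ, Nonempty (L ≃ₗ[T] (Fin k → T)) :=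
    ⟨_, ⟨(Module.finBasis T L).equivFun⟩⟩
  obtain ⟨b, hli, hspan, hcard⟩ := exists_fam_hB2_of_free e (pullX BX ι) hadj hnd hη
  -- the image family
  have hli' : LinearIndependent O (ι ∘ b) :=
    OmegaLoc.linearIndependent_comp ι hι hli
  have hgram : gram BX (ι ∘ b) = gram (pullX BX ι) b := by
    ext i j
    rfl
  have hdet : (gram BX (ι ∘ b)).det ≠ 0 := by
    rw [hgram]
    exact gram_det_ne_zero_of_eta_ne_bot (pullX BX ι) hadj hnd hη b hli hspan
  have hspan' : span O (Set.range (ι ∘ b)) = P := by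
    apply le_antisymm
    · rw [span_le]
      rintro _ ⟨i, rfl⟩
      have hbi : b i ∈ torP πO L := by
        have : b i ∈ torPO πO L := by rw [← hspan]; exact subset_span ⟨i, rfl⟩
        exact this
      refine hold (b i) fun k => ?_
      rw [← hact, smul_eq_of_mem_torP πO hbi (g k), hlam, ← algebraMap_smul T (lamk k) (b i)]
      rw [algebraMap_smul, map_smul]
    · intro y hy
      obtain ⟨x, rfl⟩ := hin hy
      have hx : x ∈ torP πO L := by
        refine mem_torP_of_adjoin_range πO g hG fun k => ?_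
        apply hι
        rw [hact, hPe _ hy k, hlam, ← map_smul]
      have hx' : x ∈ span O (Set.range b) := by rw [hspan]; exact hx
      rw [Set.range_comp, ← Submodule.map_span]
      exact Submodule.mem_map_of_mem hx'
  -- the rank
  have hk2 : k = 2 := by
    have heven : Even k := even_of_gram_det_ne_zero two_ne_zero BX hskew (ι ∘ b) hdet
    have hle : k ≤ 2 := by
      have h2 : Module.finrank O (span O (Set.range (ι ∘ b))) = k := by
        rw [finrank_span_eq_card hli', Fintype.card_fin]
      rw [← hspan', h2] at hP2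
      exact hP2
    have hpos : k ≠ 0 := by
      rintro rfl
      have : Subsingleton L := e.toEquiv.subsingleton
      exact not_subsingleton L this
    obtain ⟨m, hm⟩ := heven
    omega
  subst hk2
  refine ⟨b, hli, hspan, ?_, hcard, hli', hspan', hdet⟩
  rw [← OmegaLoc.card_congMod_span BX (pullX BX ι) ι L₂ htop horth (fun _ _ => rfl) b, hspan']

end Main

end Fermat.Agent.GE9.Eta.Base.FieldsAbs
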