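/-
GATE-E (S59 pre-work) / ETA sub-gate, leaf EB2 of helper2's GE9-ETA-BASE design, FIELDS FORM
(helper74): EB2 in the exact shape consumed by `Fields.base_fields` (helper2 7594) — with
`L := ↥(locSub (actN O pr hpr N) 𝔪)` (= E6's `Mbase`):

  `∃ ι : L →ₗ[O] O ⊗[ℤ] Lam N, ∃ L₂, Injective ι ∧ tensHom (ι y) = y ∧ ι equivariant ∧
     range ι ⊔ L₂ = ⊤ ∧ range ι ⟂ L₂ for BW ∧ (primary for actLam ⟹ in range ι)`.

* `awaySub`, `locSub_sup_awaySub`, `apply_eq_zero_of_mem_locSub_of_mem_awaySub` : the instance-free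
  away part, `X = X_𝔪 ⊕ X^𝔪`, and the orthogonality for a self-adjoint action (ANY action `act`,
  e.g. helper64's `tA`);
* `BW_actLam`            : `actLam t` is self-adjoint for the Fricke-twisted cup form `BW`;
* `exists_iota_fields`   : the statement above, (BND) as a binder;
* `exists_iota_fields_of_squarefree` : the same at a squarefree level with one non-Eisenstein
  symbol (BND discharged by `LocBridgeBnd.hbnd_actN_of_squarefree`).
-/
import Mathlib
import Fermat.Agent.GE9.Eta.Base.LocBridgeBnd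
import Fermat.Agent.GE9.Eta.Mod
import Fermat.Agent.GE9.Eta.Loc

set_option autoImplicit false
set_option linter.unusedSectionVars false
set_option linter.style.haveILetI false

open scoped TensorProduct
open CongruenceSubgroup ModularCurve.Period

namespace Fermat.Agent.GE9.Eta.Base.LocBridgeFields

open MvPolynomial
open Fermat.Agent.GB.B3.RealLevel Fermat.Agent.GB.B3.Loc
open Fermat.Agent.GB.B3.LocBridge (moduleOfAct isScalarTower_moduleOfAct isLoc_iff_mem_locPart)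
open Fermat.Agent.GB.B8.LevelStage Fermat.Agent.GB.B8.LevelGen Fermat.Agent.GB.B3.HeckeAct
open Fermat.Agent.GJ.J2.Lat Fermat.Agent.GE9.Eta.Mod Fermat.Agent.GE9.Eta.Loc
open Fermat.Agent.GE9.Eta.Base Fermat.Agent.GE9.Eta.Base.LocBridge
  Fermat.Agent.GE9.Eta.Base.LocBridgePlug Fermat.Agent.GE9.Eta.Base.LocBridgeBnd

/-! ### the away part, instance-free -/

section Away

variable {O : Type} [CommRing O] {𝕋 : Type} [CommRing 𝕋] [Algebra O 𝕋]
  {X : Type} [AddCommGroup X] [Module O X]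

/-- **the away part** of `X` for the action `act` at `𝔪`: the elements killed by some `s ∉ 𝔪`
(instance-free form of `Loc.awayPart`). -/
def awaySub (act : 𝕋 →ₐ[O] Module.End O X) (𝔪 : Ideal 𝕋) [𝔪.IsPrime] : Submodule O X :=
  letI := moduleOfAct act
  haveI := isScalarTower_moduleOfAct act
  (awayPart 𝔪 X).restrictScalars O

theorem mem_awaySub (act : 𝕋 →ₐ[O] Module.End O X) (𝔪 : Ideal 𝕋) [𝔪.IsPrime] (x : X) :
    x ∈ awaySub act 𝔪 ↔ ∃ s : 𝕋, s ∉ 𝔪 ∧ act s x = 0 := by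
  letI := moduleOfAct act
  haveI := isScalarTower_moduleOfAct act
  exact mem_awayPart

/-- for a form with self-adjoint action, the primary part is orthogonal to the away part. -/
theorem apply_eq_zero_of_mem_locSub_of_mem_awaySub (act : 𝕋 →ₐ[O] Module.End O X) (𝔪 : Ideal 𝕋)
    [𝔪.IsPrime] (B : X →ₗ[O] X →ₗ[O] O)
    (hsa : ∀ (t : 𝕋) (x y : X), B (act t x) y = B x (act t y)) {x y : X}
    (hx : x ∈ locSub act 𝔪) (hy : y ∈ awaySub act 𝔪) : B x y = 0 ∧ B y x = 0 := by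
  obtain ⟨s, hs, hsy⟩ := (mem_awaySub act 𝔪 y).1 hy
  obtain ⟨x', rfl⟩ := hx s hs
  constructor
  · rw [hsa, hsy, map_zero]
  · rw [← hsa, hsy, map_zero, LinearMap.zero_apply]

/-- **`X = X_𝔪 ⊕ X^𝔪`**, instance-free (`O` complete local noetherian, `X` finite, `𝔪` maximal). -/
theorem locSub_sup_awaySub [IsLocalRing O] [IsNoetherianRing O]
    [IsAdicComplete (IsLocalRing.maximalIdeal O) O] [Module.Finite O X]
    (act : 𝕋 →ₐ[O] Module.End O X) (𝔪 : Ideal 𝕋) [𝔪.IsMaximal] :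
    locSub act 𝔪 ⊔ awaySub act 𝔪 = ⊤ := by
  letI := moduleOfAct act
  haveI := isScalarTower_moduleOfAct act
  rw [eq_top_iff]
  intro z _
  have hcompl := isCompl_locPart_awayPart O (L := X) 𝔪
  have hz : z ∈ locPart 𝔪 X ⊔ awayPart 𝔪 X := by
    rw [hcompl.sup_eq_top]; trivial
  obtain ⟨z₁, hz₁, z₂, hz₂, rfl⟩ := Submodule.mem_sup.1 hz
  exact Submodule.add_mem _
    (Submodule.mem_sup_left ((isLoc_iff_mem_locPart act (fun _ _ => rfl) 𝔪 z₁).2 hz₁))
    (Submodule.mem_sup_right hz₂)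

theorem disjoint_locSub_awaySub [IsLocalRing O] [IsNoetherianRing O]
    [IsAdicComplete (IsLocalRing.maximalIdeal O) O] [Module.Finite O X]
    (act : 𝕋 →ₐ[O] Module.End O X) (𝔪 : Ideal 𝕋) [𝔪.IsMaximal] :
    Disjoint (locSub act 𝔪) (awaySub act 𝔪) := by
  letI := moduleOfAct act
  haveI := isScalarTower_moduleOfAct act
  have hcompl := isCompl_locPart_awayPart O (L := X) 𝔪
  rw [Submodule.disjoint_def]
  intro x hx hy
  exact (Submodule.disjoint_def.1 hcompl.disjoint) x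
    ((isLoc_iff_mem_locPart act (fun _ _ => rfl) 𝔪 x).1 hx) hy

end Away

section SelfAdjoint

variable {O : Type} [CommRing O] {N : ℕ} [NeZero N] {σ : Type} (pr : σ → ℕ)
  (hpr : ∀ s, (pr s).Prime)

/-- **the symbols act self-adjointly for `BW`**. -/
theorem BW_actLam (t : MvPolynomial σ O) (x y : O ⊗[ℤ] Lam N) :
    BW N O (actLam O N pr hpr t x) y = BW N O x (actLam O N pr hpr t y) := by
  induction t using MvPolynomial.induction_on generalizing x y with
  | C a =>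
    have h : ∀ z : O ⊗[ℤ] Lam N, actLam O N pr hpr (C a) z = a • z := fun z =>
      polyAct_C_apply _ _ a z
    rw [h, h, map_smul, map_smul, LinearMap.smul_apply]
  | add p q hp hq =>
    rw [map_add, LinearMap.add_apply, LinearMap.add_apply, map_add, LinearMap.add_apply, hp, hq,
      map_add]
  | mul_X p s hp =>
    have h1 : ∀ z : O ⊗[ℤ] Lam N, actLam O N pr hpr (p * X s) z
        = actLam O N pr hpr p ((latT N ⟨pr s, hpr s⟩).baseChange O z) := fun z => by
      rw [map_mul, actLam_X, Module.End.mul_apply]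
    have h2 : ∀ z : O ⊗[ℤ] Lam N, actLam O N pr hpr (p * X s) z
        = (latT N ⟨pr s, hpr s⟩).baseChange O (actLam O N pr hpr p z) := fun z => by
      rw [mul_comm, map_mul, actLam_X, Module.End.mul_apply]
    rw [h1, h2, hp]
    exact BW_latT (⟨pr s, hpr s⟩ : Nat.Primes) x (actLam O N pr hpr p y)

end SelfAdjoint

section Main

variable {O : Type} [CommRing O] [IsLocalRing O] [IsNoetherianRing O]
  [IsAdicComplete (IsLocalRing.maximalIdeal O) O] [IsDomain O] [CharZero O]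
  {N : ℕ} [NeZero N] {σ : Type} (pr : σ → ℕ) (hpr : ∀ s, (pr s).Prime)

/-- **EB2, fields form** (the binders `ι hι L₂ htop horth` of `Fields.base_fields` at
`L := ↥(locSub (actN O pr hpr N) 𝔪)`), (BND) as a binder. -/
theorem exists_iota_fields [Module.Finite O (Additive (Gamma0 N) →+ O)]
    (𝔪 : Ideal (MvPolynomial σ O)) [𝔪.IsMaximal]
    (hbnd : ∀ φ : Additive (Gamma0 N) →+ O, IsLoc (actN O pr hpr N) 𝔪 φ →
      φ ∈ parabolicHoms O (Gamma0 N) O) :
    ∃ (ι : ↥(locSub (actN O pr hpr N) 𝔪) →ₗ[O] O ⊗[ℤ] Lam N)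
      (L₂ : Submodule O (O ⊗[ℤ] Lam N)),
      Function.Injective ι ∧
      (∀ y : ↥(locSub (actN O pr hpr N) 𝔪),
        tensHom N O (ι y) = (y : Additive (Gamma0 N) →+ O)) ∧
      (∀ (t : MvPolynomial σ O) (y : ↥(locSub (actN O pr hpr N) 𝔪)),
        ι (locAct (actN O pr hpr N) 𝔪 t y) = actLam O N pr hpr t (ι y)) ∧
      LinearMap.range ι ⊔ L₂ = ⊤ ∧
      (∀ (x : ↥(locSub (actN O pr hpr N) 𝔪)) (y : O ⊗[ℤ] Lam N), y ∈ L₂ →
        BW N O (ι x) y = 0) ∧
      (∀ z : O ⊗[ℤ] Lam N, (∀ s : MvPolynomial σ O, s ∉ 𝔪 → ∃ z', actLam O N pr hpr s z' = z) →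
        z ∈ LinearMap.range ι) := by
  obtain ⟨e, he1, he2, -⟩ := exists_locEquiv_tens pr hpr 𝔪 hbnd
  have hfin : Module.Finite O (O ⊗[ℤ] Lam N) := finite_tensor_lam (O := O) N
  let ι : ↥(locSub (actN O pr hpr N) 𝔪) →ₗ[O] O ⊗[ℤ] Lam N :=
    (locSub (actLam O N pr hpr) 𝔪).subtype ∘ₗ e.toLinearMap
  have hrange : LinearMap.range ι = locSub (actLam O N pr hpr) 𝔪 := by
    ext z
    constructor
    · rintro ⟨y, rfl⟩
      exact (e y).2
    · intro hz
      exact ⟨e.symm ⟨z, hz⟩, by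
        change ((e (e.symm ⟨z, hz⟩) : ↥(locSub (actLam O N pr hpr) 𝔪)) : O ⊗[ℤ] Lam N) = z
        rw [e.apply_symm_apply]⟩
  refine ⟨ι, awaySub (actLam O N pr hpr) 𝔪, ?_, he1, he2, ?_, ?_, ?_⟩
  · intro y y' hyy'
    exact e.injective (Subtype.ext hyy')
  · rw [hrange]
    exact locSub_sup_awaySub (actLam O N pr hpr) 𝔪
  · intro x y hy
    have hx : ι x ∈ locSub (actLam O N pr hpr) 𝔪 := by
      rw [← hrange]; exact ⟨x, rfl⟩
    exact (apply_eq_zero_of_mem_locSub_of_mem_awaySub (actLam O N pr hpr) 𝔪 (BW N O)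
      (fun a u v => BW_actLam pr hpr a u v) hx hy).1
  · intro z hz
    rw [hrange]
    exact hz

/-- **EB2, fields form, at a squarefree level**: one non-Eisenstein symbol prime to the level
discharges (BND). -/
theorem exists_iota_fields_of_squarefree (M : ℕ) [NeZero M] (hM : Squarefree M)
    [Module.Finite O (Additive (Gamma0 M) →+ O)]
    (𝔪 : Ideal (MvPolynomial σ O)) [𝔪.IsMaximal] (s₀ : σ) (hs₀M : ¬ pr s₀ ∣ M)
    (hτ : (X s₀ - C (((pr s₀ + 1 : ℕ) : O)) : MvPolynomial σ O) ∉ 𝔪) :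
    ∃ (ι : ↥(locSub (actN O pr hpr M) 𝔪) →ₗ[O] O ⊗[ℤ] Lam M)
      (L₂ : Submodule O (O ⊗[ℤ] Lam M)),
      Function.Injective ι ∧
      (∀ y : ↥(locSub (actN O pr hpr M) 𝔪),
        tensHom M O (ι y) = (y : Additive (Gamma0 M) →+ O)) ∧
      (∀ (t : MvPolynomial σ O) (y : ↥(locSub (actN O pr hpr M) 𝔪)),
        ι (locAct (actN O pr hpr M) 𝔪 t y) = actLam O M pr hpr t (ι y)) ∧
      LinearMap.range ι ⊔ L₂ = ⊤ ∧
      (∀ (x : ↥(locSub (actN O pr hpr M) 𝔪)) (y : O ⊗[ℤ] Lam M), y ∈ L₂ →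
        BW M O (ι x) y = 0) ∧
      (∀ z : O ⊗[ℤ] Lam M, (∀ s : MvPolynomial σ O, s ∉ 𝔪 → ∃ z', actLam O M pr hpr s z' = z) →
        z ∈ LinearMap.range ι) :=
  exists_iota_fields pr hpr 𝔪 fun φ hφ =>
    mem_parabolicHoms_iff.2 (hbnd_actN_of_squarefree pr hpr M hM 𝔪 s₀ hs₀M hτ φ hφ)

end Main

end Fermat.Agent.GE9.Eta.Base.LocBridgeFields
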