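/-
GATE-E / GE9-ETA-BASE (helper2), EB5-inst, file 2 (Pkg-free): **the ETA fields of the base record on
the module of record, with `hnt` and `hfull` discharged.**

* `nontrivial_locSub` : the `maxθ`-primary part `locSub tA (maxθ O θ)` of `O ⊗[ℤ] Lam M` is
  nontrivial (`Tloc O θ ≠ 0` acts faithfully on it: `GE6/Inst/LocModule.eq_zero_of_smul_eq_zero`);
* `lamChi χ` : the anemic system of an eigensystem `χ : heckeAlgebra M 2 S →+* O`, `ℓ ↦ χ (T_ℓ)` on
  the good primes, `0` elsewhere;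
* **`exists_full_lam`** (HOLD-BASE) : ONE call of helper63's
  `GE9/OldQ/Base.Consumer.exists_full_system` (binder `htype`: every prime of `B`, `S = ↑B`, is
  prime to `M`, or divides `M` exactly once with `NonOccAt`): a FULL system `lam` extending `χ`
  with `hfull` (every anemic eigenvector is a full eigenvector) — `lam` depends on `χ` only;
* **`primary_fields_of_chi`** : `Primary.primary_fields_locSub` for ANY point `πO` with
  `πO ∘ piT = χ`, `hnt` discharged: the exact shape of the `hin` binder of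
  `GE/Engine/Base.exists_base_FL/SO` resp. of helper54's `BaseFLStmt`.
-/
import Mathlib
import Fermat.Agent.GE9.Eta.Base.Primary
import Fermat.Agent.GE9.OldQ.Base

set_option autoImplicit false
set_option linter.unusedSectionVars false
set_option linter.style.haveILetI false

open scoped TensorProduct

namespace Fermat.Agent.GE9.Eta.Base.PrimaryType

open IsLocalRing CuspForm Submodule
open Fermat.Agent.GJ.J2.Lat Fermat.Agent.GJ.J2.LatAct Fermat.Agent.GJ.Tate.Lim
  Fermat.Agent.GB.B3.RealLevel Fermat.Agent.GB.B4.Datum.Carrier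
  Fermat.Agent.GB.B8.LevelStage Fermat.Agent.GE6.Inst.LocModule
  Fermat.Agent.GE9.Eta Fermat.Agent.GE9.Eta.Mod
  Fermat.Agent.GE9.Mult1 Fermat.Agent.GE9.NumCrit Fermat.Agent.GE9.NumCrit.ModForm
  Fermat.Agent.GE9 Fermat.Agent.GE9.Eta.Base Fermat.Agent.GE9.Eta.Base.Primary
  Fermat.Agent.GE9.OldQ.Consumer

variable {O : Type} [CommRing O] [IsDomain O] [CharZero O] [IsDiscreteValuationRing O]
  [IsAdicComplete (maximalIdeal O) O]
  {M : ℕ} [NeZero M] {S : Set ℕ}
  (θ : ↥(heckeAlgebra M 2 S) →+* ResidueField O)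
  [Module.Finite O (O ⊗[ℤ] Lam M)]

/-- **the `maxθ`-primary part of `O ⊗[ℤ] Lam M` is nontrivial.** -/
theorem nontrivial_locSub :
    Nontrivial ↥(locSub (tensorEndAlg O (latActAlg M S)) (maxθ O θ)) := by
  by_contra h
  rw [not_nontrivial_iff_subsingleton] at h
  have hfree : Module.Free ℤ (Lam M) := Fermat.Agent.GJ.J2.ZStruct.free_parabolicHoms_int M
  have hfin : Module.Finite ℤ (Lam M) := Fermat.Agent.GJ.J2.ZStruct.finite_parabolicHoms_int M
  haveI : Module.FinitePresentation ℤ (Lam M) := Module.finitePresentation_of_projective ℤ (Lam M)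
  have hinj : Function.Injective (tensorEndAlg O (latActAlg M S)) :=
    tensorEndAlg_injective O (latActAlg M S) (fun a b hab => latAct_injective M S hab)
  have h1 : (1 : Tloc O θ) = 0 :=
    eq_zero_of_smul_eq_zero (tensorEndAlg O (latActAlg M S)) (maxθ O θ) (Tloc O θ) hinj 1
      (fun y => Subsingleton.elim _ _)
  exact one_ne_zero h1

/-! ### the full system of an anemic eigensystem `χ` -/

section Chi

variable (χ : ↥(heckeAlgebra M 2 S) →+* O)

open Classical in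
/-- the anemic system of `χ`: `ℓ ↦ χ (T_ℓ)` on the good primes, `0` elsewhere. -/
noncomputable def lamChi (l : Nat.Primes) : O :=
  if h : ¬ (l : ℕ) ∣ M ∧ (l : ℕ) ∉ S then χ (heckeAlgebra.T l.2 h.1 h.2) else 0

theorem lamChi_eq {ℓ : ℕ} (hℓ : ℓ.Prime) (hℓM : ¬ ℓ ∣ M) (hℓS : ℓ ∉ S) :
    lamChi χ ⟨ℓ, hℓ⟩ = χ (heckeAlgebra.T hℓ hℓM hℓS) := by
  unfold lamChi
  rw [dif_pos ⟨hℓM, hℓS⟩]

/-- **HOLD-BASE**: ONE call of helper63's `Consumer.exists_full_system` — the anemic system of `χ`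
extends to a FULL system `lam` governing all anemic eigenvectors of `O ⊗[ℤ] Lam M`. -/
theorem exists_full_lam (B : Finset ℕ) (hSB : S = (↑B : Set ℕ))
    (hMB : ∀ q : ℕ, q.Prime → q ∣ M → q ∈ B)
    (htype : ∀ b : Nat.Primes, (b : ℕ) ∈ B →
      ¬ (b : ℕ) ∣ M ∨ ((b : ℕ) ∣ M ∧ ¬ (b : ℕ) ^ 2 ∣ M ∧ NonOccAt O B b (lamChi χ))) :
    ∃ lam : Nat.Primes → O,
      (∀ l : Nat.Primes, (l : ℕ) ∉ B → lam l = lamChi χ l) ∧
      (∀ (ℓ : ℕ) (hℓ : ℓ.Prime) (hℓM : ¬ ℓ ∣ M) (hℓS : ℓ ∉ S),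
        χ (heckeAlgebra.T hℓ hℓM hℓS) = lam ⟨ℓ, hℓ⟩) ∧
      ∀ x : O ⊗[ℤ] Lam M,
        (∀ l : Nat.Primes, ¬ (l : ℕ) ∣ M → (l : ℕ) ∉ S → (latT M l).baseChange O x = lam l • x) →
          ∀ l : Nat.Primes, (latT M l).baseChange O x = lam l • x := by
  obtain ⟨lam, hlam, hall⟩ := exists_full_system (N := M) B (lamChi χ) htype
  refine ⟨lam, hlam, ?_, ?_⟩
  · intro ℓ hℓ hℓM hℓS
    have hℓB : ((⟨ℓ, hℓ⟩ : Nat.Primes) : ℕ) ∉ B := fun h =>
      hℓS (by rw [hSB]; exact Finset.mem_coe.2 h)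
    rw [hlam ⟨ℓ, hℓ⟩ hℓB, lamChi_eq χ hℓ hℓM hℓS]
  · intro x hx
    refine hall x fun l hlB => ?_
    have hlS : (l : ℕ) ∉ S := fun h => hlB (by rw [hSB] at h; exact Finset.mem_coe.1 h)
    have hlM : ¬ (l : ℕ) ∣ M := fun h => hlB (hMB l l.2 h)
    rw [← hlam l hlB]
    exact hx l hlM hlS

end Chi

/-! ### the fields -/

/-- **the ETA fields of the base record on the module of record**, for a point `πO` of an anemic
eigensystem `χ` whose full system is `lam` (`exists_full_lam`); `hnt` discharged. -/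
theorem primary_fields_of_chi (hMS : ∀ q : ℕ, q.Prime → q ∣ M → q ∈ S)
    (χ : ↥(heckeAlgebra M 2 S) →+* O) (lam : Nat.Primes → O)
    (hχlam : ∀ (ℓ : ℕ) (hℓ : ℓ.Prime) (hℓM : ¬ ℓ ∣ M) (hℓS : ℓ ∉ S),
      χ (heckeAlgebra.T hℓ hℓM hℓS) = lam ⟨ℓ, hℓ⟩)
    (hfull : ∀ x : O ⊗[ℤ] Lam M,
      (∀ l : Nat.Primes, ¬ (l : ℕ) ∣ M → (l : ℕ) ∉ S → (latT M l).baseChange O x = lam l • x) →
        ∀ l : Nat.Primes, (latT M l).baseChange O x = lam l • x)
    [NoZeroSMulDivisors O (Tloc O θ)]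
    (hfree : letI := locModule (tensorEndAlg O (latActAlg M S)) (maxθ O θ) (Tloc O θ)
      Module.Free (Tloc O θ) ↥(locSub (tensorEndAlg O (latActAlg M S)) (maxθ O θ)))
    (πO : Tloc O θ →ₐ[O] O) (hπO : ∀ t : ↥(heckeAlgebra M 2 S), πO (piT O θ t) = χ t)
    (hη : etaIdeal πO ≠ ⊥) :
    letI := locModule (tensorEndAlg O (latActAlg M S)) (maxθ O θ) (Tloc O θ)
    haveI := isScalarTower_locModule (tensorEndAlg O (latActAlg M S)) (maxθ O θ) (Tloc O θ)
    (∀ (t : Tloc O θ) (x y : ↥(locSub (tensorEndAlg O (latActAlg M S)) (maxθ O θ))),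
      pullBW (locSub (tensorEndAlg O (latActAlg M S)) (maxθ O θ)).subtype (t • x) y
        = pullBW (locSub (tensorEndAlg O (latActAlg M S)) (maxθ O θ)).subtype x (t • y)) ∧
    (∀ w : ↥(locSub (tensorEndAlg O (latActAlg M S)) (maxθ O θ)),
      (∀ z, pullBW (locSub (tensorEndAlg O (latActAlg M S)) (maxθ O θ)).subtype z w = 0) →
        w = 0) ∧
    ∃ b : Fin 2 → ↥(locSub (tensorEndAlg O (latActAlg M S)) (maxθ O θ)),
      LinearIndependent O b ∧
      span O (Set.range b)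
        = torPO πO ↥(locSub (tensorEndAlg O (latActAlg M S)) (maxθ O θ)) ∧
      Nat.card (CongMod (pullBW (locSub (tensorEndAlg O (latActAlg M S)) (maxθ O θ)).subtype)
        (span O (Set.range b))) = omegaCard M O lam ∧
      Nat.card (CongMod (pullBW (locSub (tensorEndAlg O (latActAlg M S)) (maxθ O θ)).subtype)
        (span O (Set.range b))) = Ind.etaCard πO ^ 2 ∧
      EtaStage M O lam 2 :=
  primary_fields_locSub θ hMS hfree (nontrivial_locSub θ) πO hη lam
    (fun ℓ hℓ hℓM hℓS => (hπO _).trans (hχlam ℓ hℓ hℓM hℓS)) hfull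

end Fermat.Agent.GE9.Eta.Base.PrimaryType
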